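/-
PROGRAM U / S35, row `U.S35.Betti.Norm` (helper84): the Betti side of the trace (norm) map
from level `N * ℓ` to level `N`.

* `verA N ℓ : AN N →+ AN (N * ℓ)` : the transfer (Verlagerung) along `Γ₀(N ℓ) ≤ Γ₀(N)`
  (Mathlib's `MonoidHom.transfer`), descended to `A = Γ₀^ab / ⟨parabolic, elliptic⟩`
  (cycle formula + `BettiA.trace_pow_sq_le`).
* `krel_norm` : if `f ∈ F_{Nℓ}` is a Kummer function with Kummer character `c`, then
  `Norm_{F_{Nℓ} / α F_N} f` is a Kummer function of level `N` with character `c ∘ verA`.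
  (Root of the norm: `∏_{q ∈ Γ₀(N)/Γ₀(Nℓ)} H ∘ rep_q⁻¹`, by helper120's `HeckeNormQ.emb0_norm`;
  `m ∣ div` by helper18's `E4.divBy_norm_along`.)
-/
import Mathlib
import Fermat.Agent.S30.Producer.Objects
import Fermat.Agent.S30.HeckeNormQ
import Fermat.Agent.S30.E4.NormDivBy
import Fermat.Agent.S30.BettiA

set_option autoImplicit false
set_option linter.dupNamespace false

noncomputable section

open scoped MatrixGroups
open CongruenceSubgroup ModularCurve AlgebraicCurve UpperHalfPlane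
open Fermat.Agent.S24.HolH Fermat.Agent.S24.Theta Fermat.Agent.S24.Modular
open Fermat.Agent.S30 Fermat.Agent.S30.KummerChar
open Fermat.Agent.S30.Producer hiding FN
open Fermat.Agent.S30.HeckeNormQ

namespace Fermat.Agent.S35.Betti.Norm

/-! ### The transfer `Γ₀(N) → A(N ℓ)` -/

section Transfer

variable (N ℓ : ℕ)

/-- `Γ₀(N ℓ)` as a subgroup of `Γ₀(N)`. -/
abbrev subH : Subgroup (Gamma0 N) := (Gamma0 (N * ℓ)).subgroupOf (Gamma0 N)

/-- The inclusion of `subH` into `Γ₀(N ℓ)`. -/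
def inclH : subH N ℓ →* Gamma0 (N * ℓ) where
  toFun h := ⟨((h : Gamma0 N) : SL(2, ℤ)), Subgroup.mem_subgroupOf.mp h.2⟩
  map_one' := rfl
  map_mul' _ _ := rfl

@[simp]
theorem coe_inclH (h : subH N ℓ) :
    ((inclH N ℓ h : Gamma0 (N * ℓ)) : SL(2, ℤ)) = ((h : Gamma0 N) : SL(2, ℤ)) := rfl

/-- The factor of the transfer at the coset `q`: `rep_q⁻¹ γ rep_{γ⁻¹ q} ∈ Γ₀(N ℓ)`. -/
def hq (γ : Gamma0 N) (q : RelQ N ℓ) : subH N ℓ :=
  ⟨(Quotient.out q)⁻¹ * γ * Quotient.out (γ⁻¹ • q), by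
    rw [mul_assoc, ← QuotientGroup.eq]
    have h1 : ((γ * Quotient.out (γ⁻¹ • q) : Gamma0 N) : RelQ N ℓ)
        = γ • ((Quotient.out (γ⁻¹ • q) : Gamma0 N) : RelQ N ℓ) := rfl
    rw [h1, QuotientGroup.out_eq', QuotientGroup.out_eq', smul_inv_smul]⟩

theorem coe_hq (γ : Gamma0 N) (q : RelQ N ℓ) :
    ((hq N ℓ γ q : subH N ℓ) : Gamma0 N) = (Quotient.out q)⁻¹ * γ * Quotient.out (γ⁻¹ • q) := rfl

variable [NeZero N] [NeZero ℓ]

/-- Explicit formula for Mathlib's transfer with the transversal `Quotient.out`. -/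
theorem transfer_eq_prod {A : Type*} [CommGroup A] (ϕ : subH N ℓ →* A) (γ : Gamma0 N) :
    letI := (subH N ℓ).fintypeQuotientOfFiniteIndex
    MonoidHom.transfer ϕ γ = ∏ q : RelQ N ℓ, ϕ (hq N ℓ γ q) := by
  let _ := (subH N ℓ).fintypeQuotientOfFiniteIndex
  rw [MonoidHom.transfer_def ϕ default γ]
  unfold Subgroup.leftTransversals.diff
  refine Finset.prod_congr rfl fun q _ => congrArg ϕ (Subtype.ext ?_)
  have h1 : ∀ q' : RelQ N ℓ,
      (((default : (subH N ℓ).LeftTransversal).2.leftQuotientEquiv q' : _) : Gamma0 N)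
        = Quotient.out q' :=
    fun q' => Subgroup.IsComplement.leftQuotientEquiv_apply Quotient.out_eq' q'
  show ((((default : (subH N ℓ).LeftTransversal).2.leftQuotientEquiv q : _) : Gamma0 N))⁻¹
      * (((γ • (default : (subH N ℓ).LeftTransversal)).2.leftQuotientEquiv q : _) : Gamma0 N)
      = (Quotient.out q)⁻¹ * γ * Quotient.out (γ⁻¹ • q)
  rw [Subgroup.smul_apply_eq_smul_apply_inv_smul, h1, h1, smul_eq_mul, mul_assoc]

/-- The transfer `Γ₀(N) → A(N ℓ)`. -/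
def verHom : Additive (Gamma0 N) →+ AN (N * ℓ) :=
  MonoidHom.toAdditive (MonoidHom.transfer ((projHom (N * ℓ)).comp (inclH N ℓ)))

theorem verHom_apply (γ : Gamma0 N) :
    letI := (subH N ℓ).fintypeQuotientOfFiniteIndex
    verHom N ℓ (Additive.ofMul γ)
      = ∑ q : RelQ N ℓ, proj (N * ℓ) (Additive.ofMul (inclH N ℓ (hq N ℓ γ q))) := by
  let _ := (subH N ℓ).fintypeQuotientOfFiniteIndex
  show Additive.ofMul (MonoidHom.transfer ((projHom (N * ℓ)).comp (inclH N ℓ)) γ) = _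
  rw [transfer_eq_prod, ofMul_prod]
  rfl

omit [NeZero N] [NeZero ℓ] in
/-- Conjugates of powers of an element of trace² at most `4` have trace² at most `4`. -/
theorem conj_pow_mem_parEll {γ : Gamma0 N} (hγ : γ ∈ parEll N) (g : Gamma0 N) (k : ℕ)
    (x : Gamma0 (N * ℓ)) (hx : (x : SL(2, ℤ)) = ((g⁻¹ * γ ^ k * g : Gamma0 N) : SL(2, ℤ))) :
    x ∈ parEll (N * ℓ) := by
  rw [mem_parEll] at hγ ⊢
  rw [hx]
  have h1 : (((g⁻¹ * γ ^ k * g : Gamma0 N) : SL(2, ℤ)) : Matrix (Fin 2) (Fin 2) ℤ)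
      = (((g⁻¹ : Gamma0 N) : SL(2, ℤ)) : Matrix (Fin 2) (Fin 2) ℤ)
        * (((γ : SL(2, ℤ)) : Matrix (Fin 2) (Fin 2) ℤ) ^ k
          * ((g : SL(2, ℤ)) : Matrix (Fin 2) (Fin 2) ℤ)) := by
    simp [Matrix.mul_assoc]
  have h2 : ((g : SL(2, ℤ)) : Matrix (Fin 2) (Fin 2) ℤ)
      * (((g⁻¹ : Gamma0 N) : SL(2, ℤ)) : Matrix (Fin 2) (Fin 2) ℤ) = 1 := by
    rw [Subgroup.coe_inv, ← Matrix.SpecialLinearGroup.coe_mul, mul_inv_cancel,
      Matrix.SpecialLinearGroup.coe_one]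
  rw [h1, Matrix.trace_mul_comm, Matrix.mul_assoc, h2, Matrix.mul_one]
  exact BettiA.trace_pow_sq_le _ (γ : SL(2, ℤ)).det_coe hγ k

/-- The transfer kills the parabolic and elliptic elements. -/
theorem verHom_parEll {γ : Gamma0 N} (hγ : γ ∈ parEll N) :
    verHom N ℓ (Additive.ofMul γ) = 0 := by
  classical
  let _ : Fintype (Quotient (MulAction.orbitRel (Subgroup.zpowers γ) (RelQ N ℓ))) :=
    Fintype.ofFinite _
  show Additive.ofMul (MonoidHom.transfer ((projHom (N * ℓ)).comp (inclH N ℓ)) γ) = 0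
  rw [MonoidHom.transfer_eq_prod_quotient_orbitRel_zpowers_quot]
  have hone : ∀ q : Quotient (MulAction.orbitRel (Subgroup.zpowers γ) (RelQ N ℓ)),
      ((projHom (N * ℓ)).comp (inclH N ℓ))
        ⟨q.out.out⁻¹ * γ ^ Function.minimalPeriod (γ • ·) q.out * q.out.out,
          QuotientGroup.out_conj_pow_minimalPeriod_mem (subH N ℓ) γ q.out⟩ = 1 := by
    intro q
    have hmem : inclH N ℓ ⟨q.out.out⁻¹ * γ ^ Function.minimalPeriod (γ • ·) q.out * q.out.out,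
        QuotientGroup.out_conj_pow_minimalPeriod_mem (subH N ℓ) γ q.out⟩ ∈ parEll (N * ℓ) :=
      conj_pow_mem_parEll N ℓ hγ q.out.out _ _ rfl
    have h0 := proj_parEll hmem
    exact congrArg Additive.toMul h0
  rw [Finset.prod_eq_one (fun q _ => hone q)]
  rfl

/-- **The transfer on `A`**: `verA N ℓ : A(N) → A(N ℓ)`. -/
def verA : AN N →+ AN (N * ℓ) :=
  lift (verHom N ℓ) (fun _ hγ => verHom_parEll N ℓ hγ)

@[simp]
theorem verA_proj (γ : Additive (Gamma0 N)) : verA N ℓ (proj N γ) = verHom N ℓ γ := rfl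

omit [NeZero N] [NeZero ℓ] in
/-- Additive characters turn finite sums into products. -/
theorem addChar_sum {ι A M : Type*} [AddCommMonoid A] [CommMonoid M] (ψ : AddChar A M)
    (s : Finset ι) (f : ι → A) : ψ (∑ i ∈ s, f i) = ∏ i ∈ s, ψ (f i) := by
  classical
  induction s using Finset.induction_on with
  | empty => simp
  | insert a s ha ih => rw [Finset.sum_insert ha, Finset.prod_insert ha, AddChar.map_add_eq_mul, ih]

/-- The character of `Γ₀(N)` attached to `c ∘ verA` is the transfer of the character attached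
to `c`. -/
theorem chi_comp_verA (m : ℕ) [NeZero m] (c : AN (N * ℓ) →+ ZMod m) (γ : Gamma0 N) :
    letI := (subH N ℓ).fintypeQuotientOfFiniteIndex
    chi N m (c.comp (verA N ℓ)) γ
      = ∏ q : RelQ N ℓ, chi (N * ℓ) m c (inclH N ℓ (hq N ℓ γ q)) := by
  let _ := (subH N ℓ).fintypeQuotientOfFiniteIndex
  unfold chi
  rw [AddMonoidHom.comp_apply, verA_proj, verHom_apply, map_sum, addChar_sum]

end Transfer

/-! ### The norm on holomorphic functions and the Kummer root of the norm -/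

section Kummer

variable (N ℓ : ℕ) [NeZero N] [NeZero ℓ]

/-- The norm on holomorphic functions: `H ↦ ∏_{q ∈ Γ₀(N)/Γ₀(Nℓ)} H ∘ rep_q⁻¹`. -/
def normHol : HolH →* HolH :=
  letI := (subH N ℓ).fintypeQuotientOfFiniteIndex
  { toFun := fun H => ∏ q : RelQ N ℓ, compSL (rep N ℓ q)⁻¹ H
    map_one' := by simp
    map_mul' := fun H₁ H₂ => by simp [Finset.prod_mul_distrib] }

theorem normHol_def (H : HolH) :
    letI := (subH N ℓ).fintypeQuotientOfFiniteIndex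
    normHol N ℓ H = ∏ q : RelQ N ℓ, compSL (rep N ℓ q)⁻¹ H := rfl

theorem normHol_apply (H : HolH) (τ : ℍ) :
    letI := (subH N ℓ).fintypeQuotientOfFiniteIndex
    (normHol N ℓ H : ℍ → ℂ) τ = ∏ q : RelQ N ℓ, (H : ℍ → ℂ) ((rep N ℓ q)⁻¹ • τ) := by
  let _ := (subH N ℓ).fintypeQuotientOfFiniteIndex
  rw [normHol_def, SubmonoidClass.coe_finsetProd, Finset.prod_apply]
  rfl

/-- **Multiplier lemma**: if `H` is an eigenfunction of all of `Γ₀(N ℓ)`, then `normHol H` is an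
eigenfunction of all of `Γ₀(N)`, with multiplier the transfer of the multiplier of `H`. -/
theorem compSL_normHol {H : HolH} (heig : ∀ γ ∈ Gamma0 (N * ℓ), IsEig γ H) (γ : Gamma0 N) :
    letI := (subH N ℓ).fintypeQuotientOfFiniteIndex
    compSL (γ : SL(2, ℤ)) (normHol N ℓ H)
      = algebraMap ℂ HolH
          (∏ q : RelQ N ℓ, mult ((inclH N ℓ (hq N ℓ γ q) : Gamma0 (N * ℓ)) : SL(2, ℤ)) H)
        * normHol N ℓ H := by
  let _ := (subH N ℓ).fintypeQuotientOfFiniteIndex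
  apply Subtype.ext
  funext τ
  show (normHol N ℓ H : ℍ → ℂ) ((γ : SL(2, ℤ)) • τ)
    = (∏ q : RelQ N ℓ, mult ((inclH N ℓ (hq N ℓ γ q) : Gamma0 (N * ℓ)) : SL(2, ℤ)) H)
      * (normHol N ℓ H : ℍ → ℂ) τ
  rw [normHol_apply, normHol_apply]
  have hterm : ∀ q : RelQ N ℓ, (H : ℍ → ℂ) ((rep N ℓ q)⁻¹ • ((γ : SL(2, ℤ)) • τ))
      = mult ((inclH N ℓ (hq N ℓ γ q) : Gamma0 (N * ℓ)) : SL(2, ℤ)) H
        * (H : ℍ → ℂ) ((rep N ℓ (γ⁻¹ • q))⁻¹ • τ) := by
    intro q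
    have hh := congrArg (fun F : HolH => (F : ℍ → ℂ) ((rep N ℓ (γ⁻¹ • q))⁻¹ • τ))
      (heig _ (inclH N ℓ (hq N ℓ γ q)).2).compSL_eq
    have hcoe : ((inclH N ℓ (hq N ℓ γ q) : Gamma0 (N * ℓ)) : SL(2, ℤ))
        = (rep N ℓ q)⁻¹ * (γ : SL(2, ℤ)) * rep N ℓ (γ⁻¹ • q) := rfl
    have hsm : ((inclH N ℓ (hq N ℓ γ q) : Gamma0 (N * ℓ)) : SL(2, ℤ))
        • ((rep N ℓ (γ⁻¹ • q))⁻¹ • τ) = (rep N ℓ q)⁻¹ • ((γ : SL(2, ℤ)) • τ) := by
      rw [hcoe, ← mul_smul, ← mul_smul, mul_assoc, mul_assoc, mul_inv_cancel, mul_one]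
    have hh' : (H : ℍ → ℂ) (((inclH N ℓ (hq N ℓ γ q) : Gamma0 (N * ℓ)) : SL(2, ℤ))
        • ((rep N ℓ (γ⁻¹ • q))⁻¹ • τ))
        = mult ((inclH N ℓ (hq N ℓ γ q) : Gamma0 (N * ℓ)) : SL(2, ℤ)) H
          * (H : ℍ → ℂ) ((rep N ℓ (γ⁻¹ • q))⁻¹ • τ) := hh
    rw [← hsm, hh']
  rw [Finset.prod_congr rfl (fun q _ => hterm q), Finset.prod_mul_distrib]
  congr 1
  exact Equiv.prod_comp (MulAction.toPerm (γ⁻¹ : Gamma0 N))
    (fun q' : RelQ N ℓ => (H : ℍ → ℂ) ((rep N ℓ q')⁻¹ • τ))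

/-- `θ` of the norm: if `Norm a * b₁ = a₁` in `F_N` (`a ∈ A0 (N ℓ)`, `a₁ b₁ ∈ A0 N`) then
`θ a₁ = normHol (θ a) * θ b₁`. -/
theorem theta_eq_normHol_mul (a : A0 (N * ℓ)) {a₁ b₁ : A0 N}
    (h : letI := algebraAlong (heckeAlphaBar Kbar N ℓ)
      Algebra.norm (FN N) (a : FN (N * ℓ)) * (b₁ : FN N) = (a₁ : FN N)) :
    theta iotaBar N a₁ = normHol N ℓ (theta iotaBar (N * ℓ) a) * theta iotaBar N b₁ := by
  let _ := algebraAlong (heckeAlphaBar Kbar N ℓ)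
  let _ := (subH N ℓ).fintypeQuotientOfFiniteIndex
  apply IsFractionRing.injective HolH (FractionRing HolH)
  have h1 : emb0 iotaBar N (Algebra.norm (FN N) (a : FN (N * ℓ)))
      = ∏ q : RelQ N ℓ, emb iotaBar N ℓ q (a : FN (N * ℓ)) := emb0_norm iotaBar N ℓ _
  have h2 : algebraMap HolH (FractionRing HolH) (normHol N ℓ (theta iotaBar (N * ℓ) a))
      = emb0 iotaBar N (Algebra.norm (FN N) (a : FN (N * ℓ))) := by
    rw [h1, normHol_def, map_prod]
    exact Finset.prod_congr rfl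
      (fun q _ => (cosetEmb_mk_coe iotaBar (N * ℓ) (rep N ℓ q) a).symm)
  rw [map_mul, h2, ← cosetEmb_one_coe, ← cosetEmb_one_coe]
  show emb0 iotaBar N (a₁ : FN N)
    = emb0 iotaBar N (Algebra.norm (FN N) (a : FN (N * ℓ))) * emb0 iotaBar N (b₁ : FN N)
  rw [← map_mul, h]

/-- **Kummer root of the norm**: if `H` is a Kummer root of `(a, b)` at level `N ℓ` and
`f * b = a`, then `Norm f = a' / b'` has the Kummer root `normHol H * θ b₁ * θ b₂`, whose
multipliers on `Γ₀(N)` are the transfer of the multipliers of `H`. -/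
theorem exists_isKummerRoot_norm {m : ℕ} (hm : 0 < m) {a b : A0 (N * ℓ)} (ha : a ≠ 0)
    (hb : b ≠ 0) {f : FN (N * ℓ)} (hf : f * (b : FN (N * ℓ)) = (a : FN (N * ℓ))) {H : HolH}
    (h : IsKummerRoot iotaBar m a b H) :
    letI := algebraAlong (heckeAlphaBar Kbar N ℓ)
    letI := (subH N ℓ).fintypeQuotientOfFiniteIndex
    ∃ (a' b' : A0 N) (H' : HolH), a' ≠ 0 ∧ b' ≠ 0 ∧
      Algebra.norm (FN N) f * (b' : FN N) = (a' : FN N) ∧
      IsKummerRoot iotaBar m a' b' H' ∧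
      ∀ γ : Gamma0 N, mult (γ : SL(2, ℤ)) H'
        = ∏ q : RelQ N ℓ, mult ((inclH N ℓ (hq N ℓ γ q) : Gamma0 (N * ℓ)) : SL(2, ℤ)) H := by
  let _ := algebraAlong (heckeAlphaBar Kbar N ℓ)
  let _ := (subH N ℓ).fintypeQuotientOfFiniteIndex
  have : Module.Finite (FN N) (FN (N * ℓ)) := finite_alpha N ℓ
  have ha' : (a : FN (N * ℓ)) ≠ 0 := fun h0 => ha (Subtype.ext h0)
  have hb' : (b : FN (N * ℓ)) ≠ 0 := fun h0 => hb (Subtype.ext h0)
  obtain ⟨a₁, b₁, hb₁, e₁⟩ := exists_mul_eq (Algebra.norm (FN N) (a : FN (N * ℓ)))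
  obtain ⟨a₂, b₂, hb₂, e₂⟩ := exists_mul_eq (Algebra.norm (FN N) (b : FN (N * ℓ)))
  have hTa : Algebra.norm (FN N) (a : FN (N * ℓ)) ≠ 0 := by
    rw [Ne, Algebra.norm_eq_zero_iff]
    exact ha'
  have hTb : Algebra.norm (FN N) (b : FN (N * ℓ)) ≠ 0 := by
    rw [Ne, Algebra.norm_eq_zero_iff]
    exact hb'
  have ha₁ : (a₁ : FN N) ≠ 0 := by rw [← e₁]; exact mul_ne_zero hTa hb₁
  have ha₂ : (a₂ : FN N) ≠ 0 := by rw [← e₂]; exact mul_ne_zero hTb hb₂
  have t₁ : theta iotaBar N a₁ = normHol N ℓ (theta iotaBar (N * ℓ) a) * theta iotaBar N b₁ :=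
    theta_eq_normHol_mul N ℓ a e₁
  have t₂ : theta iotaBar N a₂ = normHol N ℓ (theta iotaBar (N * ℓ) b) * theta iotaBar N b₂ :=
    theta_eq_normHol_mul N ℓ b e₂
  have hne1 : a₁ * b₂ ≠ 0 := by
    intro h0
    have h1 := congrArg (fun x : A0 N => (x : FN N)) h0
    exact mul_ne_zero ha₁ hb₂ h1
  have hne2 : b₁ * a₂ ≠ 0 := by
    intro h0
    have h1 := congrArg (fun x : A0 N => (x : FN N)) h0
    exact mul_ne_zero hb₁ ha₂ h1
  have hroot : IsKummerRoot iotaBar m (a₁ * b₂) (b₁ * a₂)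
      (normHol N ℓ H * theta iotaBar N b₁ * theta iotaBar N b₂) := by
    unfold IsKummerRoot at h ⊢
    have hX : normHol N ℓ H ^ m
        = normHol N ℓ (theta iotaBar (N * ℓ) a)
          * normHol N ℓ (theta iotaBar (N * ℓ) b) ^ (m - 1) := by
      rw [← map_pow, h, map_mul, map_pow]
    obtain ⟨k, rfl⟩ : ∃ k, m = k + 1 := ⟨m - 1, (Nat.sub_add_cancel hm).symm⟩
    rw [Nat.add_sub_cancel] at hX ⊢
    rw [map_mul, map_mul, t₁, t₂]
    linear_combination (theta iotaBar N b₁ * theta iotaBar N b₂) ^ (k + 1) * hX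
  refine ⟨a₁ * b₂, b₁ * a₂, normHol N ℓ H * theta iotaBar N b₁ * theta iotaBar N b₂, hne1, hne2,
    ?_, hroot, ?_⟩
  · have hn : Algebra.norm (FN N) f * Algebra.norm (FN N) (b : FN (N * ℓ))
        = Algebra.norm (FN N) (a : FN (N * ℓ)) := by
      rw [← map_mul, hf]
    show Algebra.norm (FN N) f * ((b₁ : FN N) * (a₂ : FN N)) = (a₁ : FN N) * (b₂ : FN N)
    rw [← e₁, ← e₂, ← hn]
    ring
  · intro γ
    have hH' : normHol N ℓ H * theta iotaBar N b₁ * theta iotaBar N b₂ ≠ 0 :=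
      hroot.ne_zero hm hne1 hne2
    apply mult_eq_of_eq hH'
    rw [map_mul, map_mul, compSL_theta_of_mem_Gamma0 γ.2, compSL_theta_of_mem_Gamma0 γ.2,
      compSL_normHol N ℓ (fun γ' hγ' => h.isEig hm hγ') γ]
    ring

/-- **The Kummer character of the norm is the transfer of the Kummer character.** -/
theorem krel_norm {m : ℕ} [NeZero m] {f : FN (N * ℓ)} {c : AN (N * ℓ) →+ ZMod m}
    (h : KRel (N * ℓ) m f c) :
    letI := algebraAlong (heckeAlphaBar Kbar N ℓ)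
    KRel N m (Algebra.norm (FN N) f) (c.comp (verA N ℓ)) := by
  let _ := algebraAlong (heckeAlphaBar Kbar N ℓ)
  have : Module.Finite (FN N) (FN (N * ℓ)) := finite_alpha N ℓ
  obtain ⟨hf, hdiv, a, b, H, ha, hb, hfab, hroot, hmult⟩ := h
  have hm : 0 < m := Nat.pos_of_ne_zero (NeZero.ne m)
  obtain ⟨a', b', H', ha', hb', e, hroot', hmult'⟩ :=
    exists_isKummerRoot_norm N ℓ hm ha hb hfab hroot
  refine ⟨?_, ?_, a', b', H', ha', hb', e, hroot', fun γ => ?_⟩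
  · rw [Ne, Algebra.norm_eq_zero_iff]
    exact hf
  · exact E4.divBy_norm_along (heckeAlphaBar Kbar N ℓ) m f hf hdiv
  · rw [hmult' γ, chi_comp_verA]
    exact Finset.prod_congr rfl (fun q _ => hmult _)

end Kummer

end Fermat.Agent.S35.Betti.Norm
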