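/-
PROGRAM U / S35, row `U.S35.Betti.Norm` (helper84), part 2: the transfer commutes with the Hecke
correspondences.

* `sum_tf_comm` : ABSTRACT form.  `G` a group, `H ≤ G` of finite index, `X` a finite set with a
  right action `r` of `G` and a cocycle `c : G → X → G` (`c (g g') x = c g x * c g' (x·g)`)
  such that `c g x ∈ H ↔ g ∈ H`.  Then for every homomorphism `φ : H → B` the "Hecke operator"
  `γ ↦ ∑_x φ (c γ x)` commutes with the transfer `γ ↦ ∑_q φ (rep_q⁻¹ γ rep_{γ⁻¹ q})`.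
* `verA_tau` : `verA N ℓ ∘ tau N p = tau (N ℓ) p ∘ verA N ℓ` on `A(N)`, for `p` prime,
  `p ∤ N ℓ`.  (Input `ν_τ` of `S35.Limit.nonempty_ssData`.)
-/
import Mathlib
import Fermat.Agent.S35.Betti.Norm
import Fermat.Agent.S30.Producer.BettiABricks
import Fermat.Agent.S30.BettiHecke.Involution

set_option autoImplicit false
set_option linter.dupNamespace false

noncomputable section

open scoped MatrixGroups
open CongruenceSubgroup
open Fermat.Agent.S30 Fermat.Agent.S30.BettiHecke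
open Fermat.Agent.S30.Producer hiding FN
open Fermat.Agent.S30.HeckeNormQ Fermat.Agent.S22.HeckePerm

namespace Fermat.Agent.S35.Betti.NormHecke

/-! ### The abstract commutation -/

section Abstract

variable {G : Type*} [Group G] (H : Subgroup G)

/-- The factor of the transfer at the coset `q`: `rep_q⁻¹ γ rep_{γ⁻¹ q} ∈ H`. -/
def tf (γ : G) (q : G ⧸ H) : H :=
  ⟨(Quotient.out q)⁻¹ * γ * Quotient.out (γ⁻¹ • q), by
    rw [mul_assoc, ← QuotientGroup.eq]
    have h1 : ((γ * Quotient.out (γ⁻¹ • q) : G) : G ⧸ H)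
        = γ • ((Quotient.out (γ⁻¹ • q) : G) : G ⧸ H) := rfl
    rw [h1, QuotientGroup.out_eq', QuotientGroup.out_eq', smul_inv_smul]⟩

theorem coe_tf (γ : G) (q : G ⧸ H) :
    ((tf H γ q : H) : G) = (Quotient.out q)⁻¹ * γ * Quotient.out (γ⁻¹ • q) := rfl

variable {X : Type*} (c : G → X → G) (r : G → Equiv.Perm X)

include c r in
theorem sum_tf_comm [Fintype X] [Fintype (G ⧸ H)]
    (hc1 : ∀ g g' x, c (g * g') x = c g x * c g' (r g x))
    (hr1 : ∀ g g' x, r (g * g') x = r g' (r g x))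
    (hc0 : ∀ x, c 1 x = 1) (hr0 : ∀ x, r 1 x = x)
    (hcH : ∀ g x, c g x ∈ H ↔ g ∈ H)
    {B : Type*} [AddCommGroup B] (φ : H → B) (hφ : ∀ a b, φ (a * b) = φ a + φ b) (γ : G) :
    ∑ x, ∑ q : G ⧸ H, φ (tf H (c γ x) q)
      = ∑ q : G ⧸ H, ∑ x, φ ⟨c (tf H γ q : G) x, (hcH _ _).mpr (tf H γ q).2⟩ := by
  classical
  -- basic consequences
  have hφ1 : φ 1 = 0 := by
    have h := hφ 1 1
    rw [mul_one] at h
    exact left_eq_add.mp h
  have hφinv : ∀ a, φ a⁻¹ = -φ a := by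
    intro a
    have h := hφ a a⁻¹
    rw [mul_inv_cancel, hφ1] at h
    exact eq_neg_of_add_eq_zero_right h.symm
  have hrinv : ∀ g x, r g⁻¹ (r g x) = x := by
    intro g x
    rw [← hr1, mul_inv_cancel, hr0]
  have hcinv : ∀ g x, c g⁻¹ (r g x) = (c g x)⁻¹ := by
    intro g x
    have h := hc1 g g⁻¹ x
    rw [mul_inv_cancel, hc0] at h
    exact eq_inv_of_mul_eq_one_right h.symm
  -- the permutation of the cosets induced by `c · y`
  let σ : X → G ⧸ H → G ⧸ H := fun y q => ((c (Quotient.out q) y : G) : G ⧸ H)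
  have hσ_mem : ∀ y q, (Quotient.out (σ y q))⁻¹ * c (Quotient.out q) y ∈ H := by
    intro y q
    rw [← QuotientGroup.eq]
    exact QuotientGroup.out_eq' _
  let k : X → G ⧸ H → H := fun y q => ⟨(Quotient.out (σ y q))⁻¹ * c (Quotient.out q) y, hσ_mem y q⟩
  have hσ_inj : ∀ y, Function.Injective (σ y) := by
    intro y q q' h
    have h1 : (c (Quotient.out q) y)⁻¹ * c (Quotient.out q') y ∈ H := QuotientGroup.eq.mp h
    have h2 : c ((Quotient.out q)⁻¹ * Quotient.out q') (r (Quotient.out q) y)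
        = (c (Quotient.out q) y)⁻¹ * c (Quotient.out q') y := by
      rw [hc1, hcinv, hrinv]
    rw [← h2, hcH] at h1
    have h3 : ((Quotient.out q : G) : G ⧸ H) = ((Quotient.out q' : G) : G ⧸ H) :=
      QuotientGroup.eq.mpr h1
    rwa [QuotientGroup.out_eq', QuotientGroup.out_eq'] at h3
  have hσ_bij : ∀ y, Function.Bijective (σ y) := fun y =>
    Finite.injective_iff_bijective.mp (hσ_inj y)
  -- compatibility of `σ` with the actions
  have hout : ∀ q : G ⧸ H, Quotient.out (γ⁻¹ • q) = γ⁻¹ * Quotient.out q * (tf H γ q : G) := by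
    intro q
    rw [coe_tf]
    group
  have hσ_act : ∀ y q, σ (r γ y) (γ⁻¹ • q) = (c γ y)⁻¹ • σ y q := by
    intro y q
    show ((c (Quotient.out (γ⁻¹ • q)) (r γ y) : G) : G ⧸ H)
      = (c γ y)⁻¹ • ((c (Quotient.out q) y : G) : G ⧸ H)
    rw [hout q, hc1, hc1, hcinv, hrinv]
    have hmem : c (tf H γ q : G) (r (γ⁻¹ * Quotient.out q) (r γ y)) ∈ H :=
      (hcH _ _).mpr (tf H γ q).2
    rw [QuotientGroup.mk_mul_of_mem _ hmem]
    rfl
  -- the key identity in `H`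
  have hkey : ∀ y q, (⟨c (tf H γ q : G) (r (Quotient.out q) y),
        (hcH _ _).mpr (tf H γ q).2⟩ : H)
      = (k y q)⁻¹ * tf H (c γ y) (σ y q) * k (r γ y) (γ⁻¹ • q) := by
    intro y q
    apply Subtype.ext
    show c (tf H γ q : G) (r (Quotient.out q) y)
      = ((Quotient.out (σ y q))⁻¹ * c (Quotient.out q) y)⁻¹
        * ((Quotient.out (σ y q))⁻¹ * c γ y * Quotient.out ((c γ y)⁻¹ • σ y q))
        * ((Quotient.out (σ (r γ y) (γ⁻¹ • q)))⁻¹ * c (Quotient.out (γ⁻¹ • q)) (r γ y))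
    rw [hσ_act y q, coe_tf, hc1, hc1, hcinv, hr1, hrinv]
    group
  -- the sum
  have hstep : ∀ q : G ⧸ H, ∑ x, φ ⟨c (tf H γ q : G) x, (hcH _ _).mpr (tf H γ q).2⟩
      = ∑ y, (-φ (k y q) + φ (tf H (c γ y) (σ y q)) + φ (k (r γ y) (γ⁻¹ • q))) := by
    intro q
    rw [← Equiv.sum_comp (r (Quotient.out q))
      (fun x => φ ⟨c (tf H γ q : G) x, (hcH _ _).mpr (tf H γ q).2⟩)]
    refine Finset.sum_congr rfl fun y _ => ?_
    rw [hkey y q, hφ, hφ, hφinv]
  rw [Finset.sum_congr rfl (fun q _ => hstep q)]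
  simp only [Finset.sum_add_distrib, Finset.sum_neg_distrib]
  have h3 : ∑ q : G ⧸ H, ∑ y, φ (k (r γ y) (γ⁻¹ • q)) = ∑ q : G ⧸ H, ∑ y, φ (k y q) := by
    rw [← Equiv.sum_comp (MulAction.toPerm (γ⁻¹ : G)) (fun q : G ⧸ H => ∑ y, φ (k y q))]
    refine Finset.sum_congr rfl fun q _ => ?_
    exact Equiv.sum_comp (r γ) (fun y => φ (k y (γ⁻¹ • q)))
  have h2 : ∑ q : G ⧸ H, ∑ y, φ (tf H (c γ y) (σ y q))
      = ∑ y, ∑ q : G ⧸ H, φ (tf H (c γ y) q) := by
    rw [Finset.sum_comm]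
    refine Finset.sum_congr rfl fun y _ => ?_
    exact Function.Bijective.sum_comp (hσ_bij y) (fun q => φ (tf H (c γ y) q))
  rw [h3, h2]
  abel

end Abstract

/-! ### The Hecke cocycle and the level -/

section Level

variable (N ℓ : ℕ) {p : ℕ}

theorem tMat_one_zero (x : OnePoint (ZMod p)) : tMat p x 1 0 = 0 := by
  induction x using OnePoint.rec with
  | infty => simp [tMat_infty]
  | coe j => simp [tMat_coe]

theorem tMat_one_one (x : OnePoint (ZMod p)) : tMat p x 1 1 = 1 ∨ tMat p x 1 1 = (p : ℤ) := by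
  induction x using OnePoint.rec with
  | infty => left; simp [tMat_infty]
  | coe j => right; simp [tMat_coe]

theorem tMat_zero_zero (x : OnePoint (ZMod p)) : tMat p x 0 0 = 1 ∨ tMat p x 0 0 = (p : ℤ) := by
  induction x using OnePoint.rec with
  | infty => right; simp [tMat_infty]
  | coe j => left; simp [tMat_coe]

/-- The Hecke cocycle at a prime `p ∤ N ℓ` preserves and reflects membership in `Γ₀(N ℓ)`. -/
theorem coc_mem_subH_iff (hp : p.Prime) (hpNℓ : ¬ p ∣ N * ℓ) (hpN : ¬ p ∣ N) (g : Gamma0 N)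
    (z : OnePoint (ZMod p)) : coc hp hpN g z ∈ Norm.subH N ℓ ↔ g ∈ Norm.subH N ℓ := by
  rw [Subgroup.mem_subgroupOf, Subgroup.mem_subgroupOf, Gamma0_mem, Gamma0_mem,
    ZMod.intCast_zmod_eq_zero_iff_dvd, ZMod.intCast_zmod_eq_zero_iff_dvd]
  have h := congrFun (congrFun (coc_spec_int hp hpN g z) 1) 0
  simp only [Matrix.mul_apply, Fin.sum_univ_two] at h
  rw [tMat_one_zero, tMat_one_zero, zero_mul, zero_add, mul_zero, add_zero] at h
  have hcop : IsCoprime ((N * ℓ : ℕ) : ℤ) (p : ℤ) :=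
    Nat.isCoprime_iff_coprime.mpr ((Nat.Prime.coprime_iff_not_dvd hp).mpr hpNℓ).symm
  constructor
  · intro hC
    have h1 : ((N * ℓ : ℕ) : ℤ) ∣ tMat p z 1 1 * ((g : SL(2, ℤ)) : Matrix (Fin 2) (Fin 2) ℤ) 1 0 := by
      rw [h]
      exact Dvd.dvd.mul_right hC _
    rcases tMat_one_one z with h2 | h2
    · rwa [h2, one_mul] at h1
    · rw [h2] at h1
      exact hcop.dvd_of_dvd_mul_left h1
  · intro hg
    have h1 : ((N * ℓ : ℕ) : ℤ) ∣ ((coc hp hpN g z : SL(2, ℤ)) : Matrix (Fin 2) (Fin 2) ℤ) 1 0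
        * tMat p (rPerm hp (g : SL(2, ℤ)) z) 0 0 := by
      rw [← h]
      exact Dvd.dvd.mul_left hg _
    rcases tMat_zero_zero (rPerm hp (g : SL(2, ℤ)) z) with h2 | h2
    · rwa [h2, mul_one] at h1
    · rw [h2] at h1
      exact hcop.dvd_of_dvd_mul_right h1

variable [NeZero N] [NeZero ℓ]

/-- **The transfer commutes with the Hecke correspondences**: for `p` prime, `p ∤ N ℓ`,
`verA N ℓ ∘ tau N p = tau (N ℓ) p ∘ verA N ℓ` on `A(N)`. -/
theorem verA_tau (hp : p.Prime) (hpNℓ : ¬ p ∣ N * ℓ) (a : AN N) :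
    Norm.verA N ℓ (tau N p a) = tau (N * ℓ) p (Norm.verA N ℓ a) := by
  have hpN : ¬ p ∣ N := fun h => hpNℓ (Dvd.dvd.mul_right h ℓ)
  have : NeZero p := ⟨hp.ne_zero⟩
  let _ := (Norm.subH N ℓ).fintypeQuotientOfFiniteIndex
  obtain ⟨γ', rfl⟩ := proj_surjective N a
  obtain ⟨γ, rfl⟩ := Additive.ofMul.surjective γ'
  -- left-hand side
  have hL : Norm.verA N ℓ (tau N p (proj N (Additive.ofMul γ)))
      = ∑ x : OnePoint (ZMod p), ∑ q : RelQ N ℓ,
          proj (N * ℓ) (Additive.ofMul (Norm.inclH N ℓ (tf (Norm.subH N ℓ) (coc hp hpN γ x) q))) := by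
    rw [tau_proj N hp hpN (BettiABricks.tHomParEll N p hp hpN)]
    show Norm.verA N ℓ (tHom (AN N) hp hpN (proj N) (Additive.ofMul γ)) = _
    rw [tHom_apply, map_sum]
    refine Finset.sum_congr rfl fun x _ => ?_
    rw [Norm.verA_proj, Norm.verHom_apply]
    rfl
  -- right-hand side
  have hcoc : ∀ (h : Norm.subH N ℓ) (x : OnePoint (ZMod p)),
      coc hp hpNℓ (Norm.inclH N ℓ h) x
        = Norm.inclH N ℓ ⟨coc hp hpN (h : Gamma0 N) x,
            (coc_mem_subH_iff N ℓ hp hpNℓ hpN _ _).mpr h.2⟩ := by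
    intro h x
    apply Subtype.ext
    exact (coc_unique hp hpNℓ (Norm.inclH N ℓ h) x _ _ (coc_spec hp hpN (h : Gamma0 N) x)).2
  have hR : tau (N * ℓ) p (Norm.verA N ℓ (proj N (Additive.ofMul γ)))
      = ∑ q : RelQ N ℓ, ∑ x : OnePoint (ZMod p),
          proj (N * ℓ) (Additive.ofMul (Norm.inclH N ℓ
            ⟨coc hp hpN (tf (Norm.subH N ℓ) γ q : Gamma0 N) x,
              (coc_mem_subH_iff N ℓ hp hpNℓ hpN _ _).mpr (tf (Norm.subH N ℓ) γ q).2⟩)) := by
    rw [Norm.verA_proj, Norm.verHom_apply, map_sum]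
    refine Finset.sum_congr rfl fun q _ => ?_
    rw [tau_proj (N * ℓ) hp hpNℓ (BettiABricks.tHomParEll (N * ℓ) p hp hpNℓ)]
    show tHom (AN (N * ℓ)) hp hpNℓ (proj (N * ℓ))
      (Additive.ofMul (Norm.inclH N ℓ (Norm.hq N ℓ γ q))) = _
    rw [tHom_apply]
    refine Finset.sum_congr rfl fun x _ => ?_
    rw [hcoc]
    rfl
  rw [hL, hR]
  exact sum_tf_comm (Norm.subH N ℓ) (fun g x => coc hp hpN g x)
    (fun g => rPerm hp (g : SL(2, ℤ)))
    (fun g g' x => coc_mul hp hpN g g' x)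
    (fun g g' x => rPerm_coe_mul hp g g' x)
    (fun x => coc_one hp hpN x)
    (fun x => by
      show rPerm hp ((1 : Gamma0 N) : SL(2, ℤ)) x = x
      rw [OneMemClass.coe_one, rPerm_one]
      rfl)
    (fun g x => coc_mem_subH_iff N ℓ hp hpNℓ hpN g x)
    (fun h => proj (N * ℓ) (Additive.ofMul (Norm.inclH N ℓ h)))
    (fun a b => by rw [map_mul, ofMul_mul, map_add]) γ

/-- Character form (the input `ν_τ` of `S35.Limit.nonempty_ssData`). -/
theorem comp_tau_comp_verA (hp : p.Prime) (hpNℓ : ¬ p ∣ N * ℓ) {B : Type*} [AddCommGroup B]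
    (c : AN (N * ℓ) →+ B) :
    (c.comp (tau (N * ℓ) p)).comp (Norm.verA N ℓ) = (c.comp (Norm.verA N ℓ)).comp (tau N p) := by
  refine AddMonoidHom.ext fun a => ?_
  show c (tau (N * ℓ) p (Norm.verA N ℓ a)) = c (Norm.verA N ℓ (tau N p a))
  rw [verA_tau N ℓ hp hpNℓ a]

end Level

end Fermat.Agent.S35.Betti.NormHecke
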