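/-
S35 (Program U), Betti side of the Atkin–Lehner swap, part 3: a canonical, transport-free form at
an arbitrary level `M`, and the commutation of two Atkin–Lehner maps.  (helper45)

* `IsConjBy M W ω` : `ω : AN M →+ AN M` is induced by conjugation with the integer matrix `W`
  (`ω [γ] = [δ]` with `δ W = W γ`); such an `ω` is unique if `det W ≠ 0`; calculus `mul`, `inner`;
* `wAt M q`       : the Atkin–Lehner matrix `[x q, -y; M, q]` with the Bezout coefficients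
                    `x = Int.gcdA q (M / q)`, `y = Int.gcdB q (M / q)`;
* `omegaAt M q`   : the Atkin–Lehner endomorphism of `AN M` (junk `0` unless it exists);
* `omegaAt_mul`   : at level `N * ℓ` it is the `omega x y h` of `Swap.lean`, for ANY Bezout datum;
* `omegaAt_omegaAt`, `omegaAt_tau`, `omegaAt_comm` : involution, commutation with every `τ_p`,
  and `ω_q ω_q' = ω_q' ω_q` for two primes exactly dividing `M`.
-/
import Mathlib
import Fermat.Agent.S35.Betti.SwapHecke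

set_option autoImplicit false
set_option linter.dupNamespace false

noncomputable section

open UpperHalfPlane ModularCurve AlgebraicCurve CongruenceSubgroup ModularForm
open scoped MatrixGroups Manifold

namespace Fermat.Agent.S35.Betti.Swap

open Fermat.Agent.S30.Producer Fermat.Agent.S37.Swap

/-! ### Endomorphisms of `AN M` induced by conjugation with an integer matrix -/

/-- `ω` is induced by conjugation with `W`: for every `γ ∈ Γ₀(M)` there is `δ ∈ Γ₀(M)` with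
`δ W = W γ` and `ω [γ] = [δ]`. -/
def IsConjBy (M : ℕ) (W : Matrix (Fin 2) (Fin 2) ℤ) (ω : AN M →+ AN M) : Prop :=
  ∀ γ : Gamma0 M, ∃ δ : Gamma0 M,
    ((δ : SL(2, ℤ)) : Matrix (Fin 2) (Fin 2) ℤ) * W = W * ((γ : SL(2, ℤ)) : Matrix (Fin 2) (Fin 2) ℤ)
      ∧ ω (proj M (Additive.ofMul γ)) = proj M (Additive.ofMul δ)

theorem mul_cancel_of_det_ne_zero {W : Matrix (Fin 2) (Fin 2) ℤ} (hW : W.det ≠ 0)
    {A B : Matrix (Fin 2) (Fin 2) ℤ} (hAB : A * W = B * W) : A = B := by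
  have h1 := congrArg (fun X => X * W.adjugate) hAB
  simp only [Matrix.mul_assoc, Matrix.mul_adjugate, Matrix.mul_smul, Matrix.mul_one] at h1
  exact smul_right_injective _ hW h1

theorem IsConjBy.unique {M : ℕ} {W : Matrix (Fin 2) (Fin 2) ℤ} (hW : W.det ≠ 0)
    {ω ω' : AN M →+ AN M} (h : IsConjBy M W ω) (h' : IsConjBy M W ω') : ω = ω' := by
  refine hom_ext fun γ => ?_
  obtain ⟨δ, hδ, e⟩ := h γ
  obtain ⟨δ', hδ', e'⟩ := h' γ
  have h1 : δ = δ' := by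
    apply Subtype.ext
    apply Subtype.ext
    exact mul_cancel_of_det_ne_zero hW (hδ.trans hδ'.symm)
  rw [e, e', h1]

theorem IsConjBy.mul {M : ℕ} {W₁ W₂ : Matrix (Fin 2) (Fin 2) ℤ} {ω₁ ω₂ : AN M →+ AN M}
    (h₁ : IsConjBy M W₁ ω₁) (h₂ : IsConjBy M W₂ ω₂) : IsConjBy M (W₁ * W₂) (ω₁.comp ω₂) := by
  intro γ
  obtain ⟨δ₂, hδ₂, e₂⟩ := h₂ γ
  obtain ⟨δ₁, hδ₁, e₁⟩ := h₁ δ₂
  refine ⟨δ₁, ?_, ?_⟩
  · rw [← Matrix.mul_assoc, hδ₁, Matrix.mul_assoc, hδ₂, Matrix.mul_assoc]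
  · rw [AddMonoidHom.comp_apply, e₂, e₁]

/-- Conjugation by (a nonzero multiple of) an element of `Γ₀(M)` induces the identity of `AN M`. -/
theorem isConjBy_inner {M : ℕ} (g : Gamma0 M) (n : ℤ) :
    IsConjBy M (n • ((g : SL(2, ℤ)) : Matrix (Fin 2) (Fin 2) ℤ)) (AddMonoidHom.id (AN M)) := by
  intro γ
  refine ⟨g * γ * g⁻¹, ?_, ?_⟩
  · have h1 : (((g * γ * g⁻¹ : Gamma0 M) : SL(2, ℤ)) : Matrix (Fin 2) (Fin 2) ℤ)
        * ((g : SL(2, ℤ)) : Matrix (Fin 2) (Fin 2) ℤ)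
        = ((g : SL(2, ℤ)) : Matrix (Fin 2) (Fin 2) ℤ)
          * ((γ : SL(2, ℤ)) : Matrix (Fin 2) (Fin 2) ℤ) := by
      rw [← Matrix.SpecialLinearGroup.coe_mul, ← Matrix.SpecialLinearGroup.coe_mul,
        ← Subgroup.coe_mul, ← Subgroup.coe_mul, inv_mul_cancel_right]
    rw [Matrix.mul_smul, Matrix.smul_mul, h1]
  · rw [AddMonoidHom.id_apply, proj_mul', proj_mul', proj_inv']
    abel

theorem IsConjBy.left_mul {M : ℕ} {W : Matrix (Fin 2) (Fin 2) ℤ} {ω : AN M →+ AN M}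
    (h : IsConjBy M W ω) (g : Gamma0 M) :
    IsConjBy M (((g : SL(2, ℤ)) : Matrix (Fin 2) (Fin 2) ℤ) * W) ω := by
  have h1 := (isConjBy_inner g 1).mul h
  rwa [one_smul, AddMonoidHom.id_comp] at h1

/-- Two matrices with `W₁ W₂ = g W₂ W₁`, `g ∈ Γ₀(M)`, induce commuting endomorphisms. -/
theorem IsConjBy.comm {M : ℕ} {W₁ W₂ : Matrix (Fin 2) (Fin 2) ℤ} {ω₁ ω₂ : AN M →+ AN M}
    (h₁ : IsConjBy M W₁ ω₁) (h₂ : IsConjBy M W₂ ω₂) (hdet : (W₁ * W₂).det ≠ 0) (g : Gamma0 M)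
    (hg : ((g : SL(2, ℤ)) : Matrix (Fin 2) (Fin 2) ℤ) * (W₂ * W₁) = W₁ * W₂) :
    ω₁.comp ω₂ = ω₂.comp ω₁ := by
  have e1 := h₁.mul h₂
  have e2 := (h₂.mul h₁).left_mul g
  rw [hg] at e2
  exact e1.unique hdet e2

/-- If `W * W = n • e` with `e ∈ Γ₀(M)`, `n ≠ 0`, the induced endomorphism is an involution. -/
theorem IsConjBy.sq {M : ℕ} {W : Matrix (Fin 2) (Fin 2) ℤ} {ω : AN M →+ AN M}
    (h : IsConjBy M W ω) (hdet : (W * W).det ≠ 0) (e : Gamma0 M) (n : ℤ)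
    (he : W * W = n • ((e : SL(2, ℤ)) : Matrix (Fin 2) (Fin 2) ℤ)) :
    ω.comp ω = AddMonoidHom.id (AN M) := by
  have e1 := h.mul h
  have e2 := isConjBy_inner e n
  rw [← he] at e2
  exact e1.unique hdet e2

/-! ### The `omega` of `Swap.lean` -/

variable {N ℓ : ℕ}

theorem isConjBy_omega [NeZero ℓ] (x y : ℤ) (h : x * ℓ + y * N = 1) :
    IsConjBy (N * ℓ) (wMat N ℓ x y) (omega x y h) :=
  fun γ => ⟨conjW x y h γ, conjW_mul_wMat x y h γ, rfl⟩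

theorem wMat_det_ne_zero [NeZero ℓ] (x y : ℤ) (h : x * ℓ + y * N = 1) :
    (wMat N ℓ x y).det ≠ 0 := by
  rw [wMat_det x y h]
  exact_mod_cast NeZero.ne ℓ

/-- The unipotent matrix `[1, k; 0, 1]`. -/
def bezUSL (k : ℤ) : SL(2, ℤ) :=
  ⟨!![1, k; 0, 1], by rw [Matrix.det_fin_two_of]; ring⟩

theorem bezUSL_mem (M : ℕ) (k : ℤ) : bezUSL k ∈ Gamma0 M := by
  rw [Gamma0_mem]
  show (((0 : ℤ) : ℤ) : ZMod M) = 0
  simp

/-- The unipotent element relating two Bezout data. -/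
def bezU (M : ℕ) (k : ℤ) : Gamma0 M := ⟨bezUSL k, bezUSL_mem M k⟩

theorem bezU_mul_wMat (x y x' y' : ℤ) (h : x * ℓ + y * N = 1) (h' : x' * ℓ + y' * N = 1) :
    ((bezU (N * ℓ) (x' * y - y' * x) : SL(2, ℤ)) : Matrix (Fin 2) (Fin 2) ℤ) * wMat N ℓ x y
      = wMat N ℓ x' y' := by
  ext i j
  fin_cases i <;> fin_cases j
  · simp only [bezU, bezUSL, wMat, Matrix.mul_apply, Fin.sum_univ_two, Matrix.of_apply,
      Matrix.cons_val', Matrix.cons_val_zero, Matrix.cons_val_one, Matrix.cons_val_fin_one,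
      Fin.zero_eta]
    linear_combination (x' * (ℓ : ℤ)) * h - (x * (ℓ : ℤ)) * h'
  · simp only [bezU, bezUSL, wMat, Matrix.mul_apply, Fin.sum_univ_two, Matrix.of_apply,
      Matrix.cons_val', Matrix.cons_val_zero, Matrix.cons_val_one, Matrix.cons_val_fin_one,
      Fin.zero_eta, Fin.mk_one]
    linear_combination y * h' - y' * h
  · simp [bezU, bezUSL, wMat, Matrix.mul_apply, Fin.sum_univ_two]
  · simp [bezU, bezUSL, wMat, Matrix.mul_apply, Fin.sum_univ_two]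

/-- `omega` does not depend on the Bezout datum. -/
theorem omega_congr [NeZero ℓ] (x y x' y' : ℤ) (h : x * ℓ + y * N = 1)
    (h' : x' * ℓ + y' * N = 1) : omega x y h = omega x' y' h' := by
  have e1 := (isConjBy_omega x y h).left_mul (bezU (N * ℓ) (x' * y - y' * x))
  rw [bezU_mul_wMat x y x' y' h h'] at e1
  exact e1.unique (wMat_det_ne_zero x' y' h') (isConjBy_omega x' y' h')

/-! ### The canonical Atkin–Lehner endomorphism at level `M` -/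

/-- The Atkin–Lehner matrix `[x q, -y; (M / q) q, q]` at level `M` for the prime `q`, with the
Bezout coefficients `x = Int.gcdA q (M / q)`, `y = Int.gcdB q (M / q)`. -/
def wAt (M q : ℕ) : Matrix (Fin 2) (Fin 2) ℤ :=
  wMat (M / q) q (Int.gcdA (q : ℤ) ((M / q : ℕ) : ℤ)) (Int.gcdB (q : ℤ) ((M / q : ℕ) : ℤ))

open Classical in
/-- **The Atkin–Lehner endomorphism `ω_q` of `AN M`** (junk `0` unless `wAt M q` normalises
`Γ₀(M)`, which is the case for a prime `q` exactly dividing `M`). -/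
def omegaAt (M q : ℕ) : AN M →+ AN M :=
  if h : ∃ ω : AN M →+ AN M, IsConjBy M (wAt M q) ω then h.choose else 0

theorem bezout_gcdA_gcdB {q N : ℕ} (h : Nat.Coprime q N) :
    Int.gcdA q N * q + Int.gcdB q N * N = 1 := by
  have h1 := Int.gcd_eq_gcd_ab (q : ℤ) (N : ℤ)
  have h2 : Int.gcd (q : ℤ) (N : ℤ) = 1 := by
    rw [Int.gcd_natCast_natCast]
    exact h
  rw [h2] at h1
  have h3 : ((1 : ℕ) : ℤ) = 1 := by norm_num
  rw [h3] at h1
  rw [h1]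
  ring

theorem coprime_of_prime_not_dvd {N ℓ : ℕ} (hℓ : ℓ.Prime) (hℓN : ¬ ℓ ∣ N) : Nat.Coprime ℓ N :=
  (Nat.Prime.coprime_iff_not_dvd hℓ).2 hℓN

/-- At level `N * ℓ` the matrix `wAt` is a `wMat`. -/
theorem wAt_mul (N ℓ : ℕ) (hℓ : 0 < ℓ) :
    wAt (N * ℓ) ℓ = wMat N ℓ (Int.gcdA ℓ N) (Int.gcdB ℓ N) := by
  unfold wAt
  rw [Nat.mul_div_cancel N hℓ]

theorem isConjBy_wAt_mul (N ℓ : ℕ) [NeZero ℓ] (hcop : Nat.Coprime ℓ N) :
    IsConjBy (N * ℓ) (wAt (N * ℓ) ℓ)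
      (omega (Int.gcdA ℓ N) (Int.gcdB ℓ N) (bezout_gcdA_gcdB hcop)) := by
  rw [wAt_mul N ℓ (Nat.pos_of_ne_zero (NeZero.ne ℓ))]
  exact isConjBy_omega _ _ _

theorem wAt_mul_det_ne_zero (N ℓ : ℕ) [NeZero ℓ] (hcop : Nat.Coprime ℓ N) :
    (wAt (N * ℓ) ℓ).det ≠ 0 := by
  rw [wAt_mul N ℓ (Nat.pos_of_ne_zero (NeZero.ne ℓ))]
  exact wMat_det_ne_zero _ _ (bezout_gcdA_gcdB hcop)

/-- **At level `N * ℓ`, `omegaAt` is the `omega` of `Swap.lean`, for any Bezout datum.** -/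
theorem omegaAt_mul (N ℓ : ℕ) [NeZero ℓ] (x y : ℤ) (h : x * ℓ + y * N = 1) :
    omegaAt (N * ℓ) ℓ = omega x y h := by
  have hcop : Nat.Coprime ℓ N := by
    rw [← Nat.isCoprime_iff_coprime]
    exact ⟨x, y, h⟩
  have hex : ∃ ω : AN (N * ℓ) →+ AN (N * ℓ), IsConjBy (N * ℓ) (wAt (N * ℓ) ℓ) ω :=
    ⟨_, isConjBy_wAt_mul N ℓ hcop⟩
  have h1 : IsConjBy (N * ℓ) (wAt (N * ℓ) ℓ) (omegaAt (N * ℓ) ℓ) := by
    unfold omegaAt
    rw [dif_pos hex]
    exact hex.choose_spec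
  rw [h1.unique (wAt_mul_det_ne_zero N ℓ hcop) (isConjBy_wAt_mul N ℓ hcop)]
  exact omega_congr _ _ _ _ _ _

/-- A prime `q` exactly dividing `M`: `M = N * q` with `q ∤ N`. -/
theorem exists_eq_mul_of_exact {M q : ℕ} (hqM : q ∣ M) (hq2 : ¬ q ^ 2 ∣ M) :
    ∃ N : ℕ, M = N * q ∧ ¬ q ∣ N := by
  obtain ⟨N, rfl⟩ := hqM
  refine ⟨N, mul_comm q N, fun h => hq2 ?_⟩
  obtain ⟨K, rfl⟩ := h
  exact ⟨K, by ring⟩

/-- `omegaAt M q` is induced by conjugation with `wAt M q`. -/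
theorem isConjBy_omegaAt {M q : ℕ} (hq : q.Prime) (hqM : q ∣ M) (hq2 : ¬ q ^ 2 ∣ M) :
    IsConjBy M (wAt M q) (omegaAt M q) := by
  obtain ⟨N, rfl, hqN⟩ := exists_eq_mul_of_exact hqM hq2
  have : NeZero q := ⟨hq.ne_zero⟩
  have hcop := coprime_of_prime_not_dvd hq hqN
  rw [omegaAt_mul N q _ _ (bezout_gcdA_gcdB hcop)]
  exact isConjBy_wAt_mul N q hcop

theorem wAt_det_ne_zero {M q : ℕ} (hq : q.Prime) (hqM : q ∣ M) (hq2 : ¬ q ^ 2 ∣ M) :
    (wAt M q).det ≠ 0 := by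
  obtain ⟨N, rfl, hqN⟩ := exists_eq_mul_of_exact hqM hq2
  have : NeZero q := ⟨hq.ne_zero⟩
  exact wAt_mul_det_ne_zero N q (coprime_of_prime_not_dvd hq hqN)

/-- `ω_q` is an involution. -/
theorem omegaAt_omegaAt {M q : ℕ} (hq : q.Prime) (hqM : q ∣ M) (hq2 : ¬ q ^ 2 ∣ M) (a : AN M) :
    omegaAt M q (omegaAt M q a) = a := by
  obtain ⟨N, rfl, hqN⟩ := exists_eq_mul_of_exact hqM hq2
  have : NeZero q := ⟨hq.ne_zero⟩
  have hcop := coprime_of_prime_not_dvd hq hqN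
  rw [omegaAt_mul N q _ _ (bezout_gcdA_gcdB hcop)]
  exact omega_omega _ _ _ a

/-- `ω_q` commutes with every Hecke correspondence `τ_p`. -/
theorem omegaAt_tau {M q : ℕ} (hq : q.Prime) (hqM : q ∣ M) (hq2 : ¬ q ^ 2 ∣ M) (p : ℕ) :
    (omegaAt M q).comp (tau M p) = (tau M p).comp (omegaAt M q) := by
  obtain ⟨N, rfl, hqN⟩ := exists_eq_mul_of_exact hqM hq2
  have : NeZero q := ⟨hq.ne_zero⟩
  have hcop := coprime_of_prime_not_dvd hq hqN
  rw [omegaAt_mul N q _ _ (bezout_gcdA_gcdB hcop)]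
  exact omega_tau _ _ _ hq p

end Fermat.Agent.S35.Betti.Swap

end
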