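/-
S35 (Program U), the Atkin–Lehner swap on the function field, canonical level-`M` form.  (helper45)

* `IsSwapAt M q w` : `w` exchanges the series `j(q^d)` and `j(q^{d q})` whenever `d q ∣ M`
  (a level-generic characterisation, no casts);
* uniqueness at level `N * ℓ` (`ℓ` prime): `swap_unique`, in particular any `ℚ̄`-automorphism
  exchanging the degeneracy maps `α`, `β` is `swapField`, e.g. `S34.ToricSwap.wAL`;
* `swapAt M q : FN M ≃ₐ[ℚ̄] FN M` (junk `refl` unless it exists), `swapAt_mul`, `swapAt_eq_wAL`;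
* `krel_swapAt`, `swapAt_galF`, `swapAt_swapAt` for a prime `q` exactly dividing `M`.
-/
import Mathlib
import Fermat.Agent.S35.Betti.SwapAt
import Fermat.Agent.S34.ToricSwap

set_option autoImplicit false
set_option linter.dupNamespace false

noncomputable section

open UpperHalfPlane ModularCurve AlgebraicCurve CongruenceSubgroup HahnSeries
open scoped MatrixGroups

namespace Fermat.Agent.S35.Betti.Swap

open Fermat.Agent.S24.Modular Fermat.Agent.S24.Theta Fermat.Agent.S37.Swap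
open Fermat.Agent.S37.SwapGal Fermat.Agent.S30.Producer

local notation "FNb" => Fermat.Agent.S30.Producer.FN

/-- `w` exchanges the series `j(q^d)` and `j(q^{d q})` whenever `d q ∣ M`. -/
def IsSwapAt (M q : ℕ) (w : FNb M ≃ₐ[Kbar] FNb M) : Prop :=
  ∀ (d : ℕ) [NeZero d] [NeZero (d * q)], d * q ∣ M → ∀ z : FNb M,
    ((z : LaurentSeries Kbar) = coeffEmb Kbar (qExpand ℚ d jq) →
      ((w z : FNb M) : LaurentSeries Kbar) = coeffEmb Kbar (qExpand ℚ (d * q) jq)) ∧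
    ((z : LaurentSeries Kbar) = coeffEmb Kbar (qExpand ℚ (d * q) jq) →
      ((w z : FNb M) : LaurentSeries Kbar) = coeffEmb Kbar (qExpand ℚ d jq))

variable {N ℓ : ℕ} [NeZero N] [NeZero ℓ]

omit [NeZero N] in
/-- A `ℚ̄`-automorphism of `F_{Nℓ}` sending `j(q^d) ↦ j(q^{dℓ})`, `j(q^{dℓ}) ↦ j(q^d)` (`d ∣ N`)
satisfies `IsSwapAt`. -/
theorem isSwapAt_of_gen (w : FNb (N * ℓ) ≃ₐ[Kbar] FNb (N * ℓ))
    (h1 : ∀ (d : ℕ) [NeZero d] (hd : d ∣ N),
      w (gen (N * ℓ) d (Dvd.dvd.mul_right hd ℓ) : FNb (N * ℓ))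
        = (gen (N * ℓ) (d * ℓ) (mul_dvd_mul_right hd ℓ) : FNb (N * ℓ)))
    (h2 : ∀ (d : ℕ) [NeZero d] (hd : d ∣ N),
      w (gen (N * ℓ) (d * ℓ) (mul_dvd_mul_right hd ℓ) : FNb (N * ℓ))
        = (gen (N * ℓ) d (Dvd.dvd.mul_right hd ℓ) : FNb (N * ℓ))) :
    IsSwapAt (N * ℓ) ℓ w := by
  intro d _ _ hd z
  have hdN : d ∣ N := Nat.dvd_of_mul_dvd_mul_right (Nat.pos_of_ne_zero (NeZero.ne ℓ)) hd
  constructor
  · intro hz
    have hz' : z = (gen (N * ℓ) d (Dvd.dvd.mul_right hdN ℓ) : FNb (N * ℓ)) :=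
      Subtype.ext (by rw [hz, coe_gen])
    rw [hz', h1 d hdN, coe_gen]
  · intro hz
    have hz' : z = (gen (N * ℓ) (d * ℓ) (mul_dvd_mul_right hdN ℓ) : FNb (N * ℓ)) :=
      Subtype.ext (by rw [hz, coe_gen])
    rw [hz', h2 d hdN, coe_gen]

theorem isSwapAt_swapField (ι : Kbar →+* ℂ) (x y : ℤ) (h : x * ℓ + y * N = 1) (hℓ : ℓ.Prime) :
    IsSwapAt (N * ℓ) ℓ (swapField ι x y h hℓ) :=
  isSwapAt_of_gen _ (fun _ _ hd => swapField_gen ι x y h hℓ hd)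
    (fun _ _ hd => swapField_gen_mul ι x y h hℓ hd)

/-- An automorphism exchanging the degeneracy maps satisfies `IsSwapAt`. -/
theorem isSwapAt_of_alpha_beta (w : FNb (N * ℓ) ≃ₐ[Kbar] FNb (N * ℓ))
    (h1 : ∀ f : FNb N, w (heckeAlphaBar Kbar N ℓ f) = heckeBetaBar Kbar N ℓ f)
    (h2 : ∀ f : FNb N, w (heckeBetaBar Kbar N ℓ f) = heckeAlphaBar Kbar N ℓ f) :
    IsSwapAt (N * ℓ) ℓ w :=
  isSwapAt_of_gen w (fun d _ hd => by rw [← alpha_gen hd, h1, beta_gen hd])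
    (fun d _ hd => by rw [← beta_gen hd, h2, alpha_gen hd])

omit [NeZero N] in
/-- **Uniqueness of the swap** at level `N ℓ`, `ℓ` prime. -/
theorem IsSwapAt.unique (hℓ : ℓ.Prime) {w w' : FNb (N * ℓ) ≃ₐ[Kbar] FNb (N * ℓ)}
    (hw : IsSwapAt (N * ℓ) ℓ w) (hw' : IsSwapAt (N * ℓ) ℓ w') : w = w' := by
  have key : ∀ a : A0 (N * ℓ), w (a : FNb (N * ℓ)) = w' (a : FNb (N * ℓ)) := by
    intro a
    refine A0_induction (p := fun a : A0 (N * ℓ) =>
      w (a : FNb (N * ℓ)) = w' (a : FNb (N * ℓ))) ?_ ?_ ?_ ?_ a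
    · intro e _ he
      rcases dvd_cases hℓ he with he' | ⟨d, hd, rfl⟩
      · apply Subtype.ext
        rw [(hw e (mul_dvd_mul_right he' ℓ) _).1 (coe_gen (N * ℓ) e he),
          (hw' e (mul_dvd_mul_right he' ℓ) _).1 (coe_gen (N * ℓ) e he)]
      · have : NeZero d := ⟨fun h0 => by
          have := NeZero.ne (d * ℓ)
          rw [h0, zero_mul] at this
          exact this rfl⟩
        apply Subtype.ext
        rw [(hw d (mul_dvd_mul_right hd ℓ) _).2 (coe_gen (N * ℓ) (d * ℓ) he),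
          (hw' d (mul_dvd_mul_right hd ℓ) _).2 (coe_gen (N * ℓ) (d * ℓ) he)]
    · intro c
      have hc : ((algebraMap Kbar (A0 (N * ℓ)) c : A0 (N * ℓ)) : FNb (N * ℓ))
          = algebraMap Kbar (FNb (N * ℓ)) c := rfl
      rw [hc, AlgEquiv.commutes, AlgEquiv.commutes]
    · intro a₁ a₂ h₁ h₂
      have hc : ((a₁ + a₂ : A0 (N * ℓ)) : FNb (N * ℓ))
          = (a₁ : FNb (N * ℓ)) + (a₂ : FNb (N * ℓ)) := rfl
      rw [hc, map_add, map_add, h₁, h₂]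
    · intro a₁ a₂ h₁ h₂
      have hc : ((a₁ * a₂ : A0 (N * ℓ)) : FNb (N * ℓ))
          = (a₁ : FNb (N * ℓ)) * (a₂ : FNb (N * ℓ)) := rfl
      rw [hc, map_mul, map_mul, h₁, h₂]
  refine AlgEquiv.ext fun z => ?_
  obtain ⟨a, b, hb, hab⟩ := exists_mul_eq z
  have h1 : w (z * (b : FNb (N * ℓ))) = w' (z * (b : FNb (N * ℓ))) := by
    rw [hab, key a]
  rw [map_mul, map_mul, key b] at h1
  have hb' : w' (b : FNb (N * ℓ)) ≠ 0 := (map_ne_zero_iff _ w'.injective).mpr hb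
  exact mul_right_cancel₀ hb' h1

/-- Any `ℚ̄`-automorphism of `F_{Nℓ}` exchanging `α` and `β` is `swapField`. -/
theorem swap_unique (ι : Kbar →+* ℂ) (x y : ℤ) (h : x * ℓ + y * N = 1) (hℓ : ℓ.Prime)
    (w : FNb (N * ℓ) ≃ₐ[Kbar] FNb (N * ℓ))
    (h1 : ∀ f : FNb N, w (heckeAlphaBar Kbar N ℓ f) = heckeBetaBar Kbar N ℓ f)
    (h2 : ∀ f : FNb N, w (heckeBetaBar Kbar N ℓ f) = heckeAlphaBar Kbar N ℓ f) :
    w = swapField ι x y h hℓ :=
  (isSwapAt_of_alpha_beta w h1 h2).unique hℓ (isSwapAt_swapField ι x y h hℓ)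

/-- The chosen swap `wAL` of `S34.ToricSwap` is `swapField`. -/
theorem wAL_eq_swapField (ι : Kbar →+* ℂ) (x y : ℤ) (h : x * ℓ + y * N = 1) (hℓ : ℓ.Prime)
    (hℓN : ¬ ℓ ∣ N) :
    Fermat.Agent.S34.ToricSwap.wAL N ℓ hℓ hℓN = swapField ι x y h hℓ :=
  swap_unique ι x y h hℓ _ (Fermat.Agent.S34.ToricSwap.wAL_alpha hℓ hℓN)
    (Fermat.Agent.S34.ToricSwap.wAL_beta hℓ hℓN)

/-- **The Kummer relation for `wAL`**: the Betti avatar of the swap `wAL` of `S34.ToricSwap` is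
`omegaAt (N ℓ) ℓ`. -/
theorem krel_wAL (hℓ : ℓ.Prime) (hℓN : ¬ ℓ ∣ N) {m : ℕ} [NeZero m] {f : FNb (N * ℓ)}
    {c : AN (N * ℓ) →+ ZMod m} (hf : KRel (N * ℓ) m f c) :
    KRel (N * ℓ) m (Fermat.Agent.S34.ToricSwap.wAL N ℓ hℓ hℓN f)
      (c.comp (omegaAt (N * ℓ) ℓ)) := by
  obtain ⟨x, y, h⟩ := exists_bezout ((Nat.Prime.coprime_iff_not_dvd hℓ).2 hℓN)
  rw [wAL_eq_swapField iotaBar x y h hℓ hℓN, omegaAt_mul N ℓ x y h]
  exact krel_swap x y h hℓ hf

/-! ### The canonical swap at level `M` -/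

/-- There is an automorphism with `IsSwapAt`. -/
def HasSwapAt (M q : ℕ) : Prop := ∃ w : FNb M ≃ₐ[Kbar] FNb M, IsSwapAt M q w

/-- **The Atkin–Lehner swap `W_q` of the function field of `X₀(M)`** (junk `refl` unless an
automorphism with `IsSwapAt` exists, which is the case for a prime `q` exactly dividing `M`). -/
def swapAt (M q : ℕ) : FNb M ≃ₐ[Kbar] FNb M :=
  @dite _ (HasSwapAt M q) (Classical.propDecidable _) (fun h => h.choose) (fun _ => AlgEquiv.refl)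

/-- At level `N * ℓ` the canonical swap is `swapField`, for any embedding and Bezout datum. -/
theorem swapAt_mul (ι : Kbar →+* ℂ) (x y : ℤ) (h : x * ℓ + y * N = 1) (hℓ : ℓ.Prime) :
    swapAt (N * ℓ) ℓ = swapField ι x y h hℓ := by
  have hex : HasSwapAt (N * ℓ) ℓ := ⟨_, isSwapAt_swapField ι x y h hℓ⟩
  have h1 : IsSwapAt (N * ℓ) ℓ (swapAt (N * ℓ) ℓ) := by
    unfold swapAt
    rw [dif_pos hex]
    exact hex.choose_spec
  exact h1.unique hℓ (isSwapAt_swapField ι x y h hℓ)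

/-- At level `N * ℓ` the canonical swap is the `wAL` of `S34.ToricSwap`. -/
theorem swapAt_eq_wAL (hℓ : ℓ.Prime) (hℓN : ¬ ℓ ∣ N) :
    swapAt (N * ℓ) ℓ = Fermat.Agent.S34.ToricSwap.wAL N ℓ hℓ hℓN := by
  obtain ⟨x, y, h⟩ := exists_bezout ((Nat.Prime.coprime_iff_not_dvd hℓ).2 hℓN)
  rw [swapAt_mul iotaBar x y h hℓ, wAL_eq_swapField iotaBar x y h hℓ hℓN]

/-- The canonical swap exchanges the degeneracy maps. -/
theorem swapAt_alpha (hℓ : ℓ.Prime) (hℓN : ¬ ℓ ∣ N) (f : FNb N) :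
    swapAt (N * ℓ) ℓ (heckeAlphaBar Kbar N ℓ f) = heckeBetaBar Kbar N ℓ f := by
  obtain ⟨x, y, h⟩ := exists_bezout ((Nat.Prime.coprime_iff_not_dvd hℓ).2 hℓN)
  rw [swapAt_mul iotaBar x y h hℓ]
  exact swapField_alpha iotaBar x y h hℓ f

theorem swapAt_beta (hℓ : ℓ.Prime) (hℓN : ¬ ℓ ∣ N) (f : FNb N) :
    swapAt (N * ℓ) ℓ (heckeBetaBar Kbar N ℓ f) = heckeAlphaBar Kbar N ℓ f := by
  obtain ⟨x, y, h⟩ := exists_bezout ((Nat.Prime.coprime_iff_not_dvd hℓ).2 hℓN)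
  rw [swapAt_mul iotaBar x y h hℓ]
  exact swapField_beta iotaBar x y h hℓ f

/-- The swap is an involution. -/
theorem swapAt_swapAt {M q : ℕ} [NeZero M] (hq : q.Prime) (hqM : q ∣ M) (hq2 : ¬ q ^ 2 ∣ M)
    (z : FNb M) : swapAt M q (swapAt M q z) = z := by
  obtain ⟨N, rfl, hqN⟩ := exists_eq_mul_of_exact hqM hq2
  have : NeZero q := ⟨hq.ne_zero⟩
  have : NeZero N := ⟨fun h0 => by
    have := NeZero.ne (N * q)
    rw [h0, zero_mul] at this
    exact this rfl⟩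
  obtain ⟨x, y, h⟩ := exists_bezout ((Nat.Prime.coprime_iff_not_dvd hq).2 hqN)
  rw [swapAt_mul iotaBar x y h hq]
  exact swapField_swapField iotaBar x y h hq z

/-- The swap commutes with the coefficientwise Galois action. -/
theorem swapAt_galF {M q : ℕ} [NeZero M] (hq : q.Prime) (hqM : q ∣ M) (hq2 : ¬ q ^ 2 ∣ M)
    (σ : Fermat.Agent.S30.GQ) (z : FNb M) :
    swapAt M q (galF M σ z) = galF M σ (swapAt M q z) := by
  obtain ⟨N, rfl, hqN⟩ := exists_eq_mul_of_exact hqM hq2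
  have : NeZero q := ⟨hq.ne_zero⟩
  have : NeZero N := ⟨fun h0 => by
    have := NeZero.ne (N * q)
    rw [h0, zero_mul] at this
    exact this rfl⟩
  obtain ⟨x, y, h⟩ := exists_bezout ((Nat.Prime.coprime_iff_not_dvd hq).2 hqN)
  rw [swapAt_mul iotaBar x y h hq]
  exact swapField_gal iotaBar x y h hq σ z

/-- **The swap law for the Kummer relation at level `M`**: for a prime `q` exactly dividing `M`,
`KRel M m f c → KRel M m (W_q f) (c ∘ ω_q)`. -/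
theorem krel_swapAt {M q : ℕ} [NeZero M] (hq : q.Prime) (hqM : q ∣ M) (hq2 : ¬ q ^ 2 ∣ M)
    {m : ℕ} [NeZero m] {f : FNb M} {c : AN M →+ ZMod m} (hf : KRel M m f c) :
    KRel M m (swapAt M q f) (c.comp (omegaAt M q)) := by
  obtain ⟨N, rfl, hqN⟩ := exists_eq_mul_of_exact hqM hq2
  have : NeZero q := ⟨hq.ne_zero⟩
  have : NeZero N := ⟨fun h0 => by
    have := NeZero.ne (N * q)
    rw [h0, zero_mul] at this
    exact this rfl⟩
  obtain ⟨x, y, h⟩ := exists_bezout ((Nat.Prime.coprime_iff_not_dvd hq).2 hqN)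
  rw [swapAt_mul iotaBar x y h hq, omegaAt_mul N q x y h]
  exact krel_swap x y h hq hf

end Fermat.Agent.S35.Betti.Swap

end
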