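/-
S35 (Program U), Betti side of the Atkin–Lehner swap, part 4: two Atkin–Lehner endomorphisms
`ω_q`, `ω_q'` of `AN M` (`q ≠ q'` primes exactly dividing `M`) commute.  (helper45)

Integer matrices: with `M = K q₁ q₂`, `W_i = [x_i q_i, -y_i; M, q_i]`, the matrix
`G = W₁ W₂ (W₂ W₁)⁻¹` is integral, of determinant one, with lower-left entry divisible by `M`.
-/
import Mathlib
import Fermat.Agent.S35.Betti.SwapAt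

set_option autoImplicit false
set_option linter.dupNamespace false

noncomputable section

open CongruenceSubgroup
open scoped MatrixGroups

namespace Fermat.Agent.S35.Betti.Swap

open Fermat.Agent.S30.Producer

/-- The Atkin–Lehner matrix with explicit integer parameters (`M = K q₁ q₂`). -/
def wInt (K q₁ q₂ x y : ℤ) : Matrix (Fin 2) (Fin 2) ℤ := !![x * q₁, -y; K * q₁ * q₂, q₁]

theorem wInt_det (K q₁ q₂ x y : ℤ) (h : x * q₁ + y * (K * q₂) = 1) :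
    (wInt K q₁ q₂ x y).det = q₁ := by
  rw [wInt, Matrix.det_fin_two_of]
  linear_combination q₁ * h

/-- The matrix `G = W₁ W₂ (W₂ W₁)⁻¹`. -/
def commG (K q₁ q₂ x₁ y₁ x₂ y₂ : ℤ) : Matrix (Fin 2) (Fin 2) ℤ :=
  !![(x₁ * x₂ * q₁ * q₂ - y₁ * (K * q₁ * q₂)) * (1 - K * y₁)
        + K * (x₁ * q₁ * y₂ + y₁ * q₂) * (x₁ * q₁ + q₂),
      (x₁ * x₂ - y₁ * K) * (x₂ * q₂ * y₁ + y₂ * q₁)
        - (x₁ * q₁ * y₂ + y₁ * q₂) * (x₁ * x₂ - y₂ * K);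
      K * q₁ * q₂ * ((x₂ * q₂ + q₁) * (1 - K * y₁) - (1 - K * y₂) * (x₁ * q₁ + q₂)),
      K * (x₂ * q₂ + q₁) * (x₂ * q₂ * y₁ + y₂ * q₁)
        + (1 - K * y₂) * (x₁ * x₂ * q₁ * q₂ - y₂ * (K * q₁ * q₂))]

theorem commG_smul (K q₁ q₂ x₁ y₁ x₂ y₂ : ℤ) :
    (q₁ * q₂) • commG K q₁ q₂ x₁ y₁ x₂ y₂
      = wInt K q₁ q₂ x₁ y₁ * wInt K q₂ q₁ x₂ y₂
        * (wInt K q₂ q₁ x₂ y₂ * wInt K q₁ q₂ x₁ y₁).adjugate := by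
  rw [Matrix.adjugate_fin_two]
  ext i j
  fin_cases i <;> fin_cases j <;>
    simp [commG, wInt, Matrix.mul_apply, Fin.sum_univ_two] <;> ring

theorem commG_mul (K q₁ q₂ x₁ y₁ x₂ y₂ : ℤ) (hq₁ : q₁ ≠ 0) (hq₂ : q₂ ≠ 0)
    (h₁ : x₁ * q₁ + y₁ * (K * q₂) = 1) (h₂ : x₂ * q₂ + y₂ * (K * q₁) = 1) :
    commG K q₁ q₂ x₁ y₁ x₂ y₂ * (wInt K q₂ q₁ x₂ y₂ * wInt K q₁ q₂ x₁ y₁)
      = wInt K q₁ q₂ x₁ y₁ * wInt K q₂ q₁ x₂ y₂ := by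
  have hdet : (wInt K q₂ q₁ x₂ y₂ * wInt K q₁ q₂ x₁ y₁).det = q₁ * q₂ := by
    rw [Matrix.det_mul, wInt_det K q₂ q₁ x₂ y₂ h₂, wInt_det K q₁ q₂ x₁ y₁ h₁, mul_comm]
  have h3 : (q₁ * q₂) • (commG K q₁ q₂ x₁ y₁ x₂ y₂
        * (wInt K q₂ q₁ x₂ y₂ * wInt K q₁ q₂ x₁ y₁))
      = (q₁ * q₂) • (wInt K q₁ q₂ x₁ y₁ * wInt K q₂ q₁ x₂ y₂) := by
    rw [← Matrix.smul_mul, commG_smul, Matrix.mul_assoc, Matrix.adjugate_mul, hdet,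
      Matrix.mul_smul, Matrix.mul_one]
  exact smul_right_injective _ (mul_ne_zero hq₁ hq₂) h3

theorem commG_det (K q₁ q₂ x₁ y₁ x₂ y₂ : ℤ) (hq₁ : q₁ ≠ 0) (hq₂ : q₂ ≠ 0)
    (h₁ : x₁ * q₁ + y₁ * (K * q₂) = 1) (h₂ : x₂ * q₂ + y₂ * (K * q₁) = 1) :
    (commG K q₁ q₂ x₁ y₁ x₂ y₂).det = 1 := by
  have h3 := congrArg Matrix.det (commG_mul K q₁ q₂ x₁ y₁ x₂ y₂ hq₁ hq₂ h₁ h₂)
  rw [Matrix.det_mul, Matrix.det_mul, Matrix.det_mul, wInt_det K q₂ q₁ x₂ y₂ h₂,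
    wInt_det K q₁ q₂ x₁ y₁ h₁] at h3
  have h4 : (commG K q₁ q₂ x₁ y₁ x₂ y₂).det * (q₂ * q₁) = 1 * (q₂ * q₁) := by
    rw [h3]; ring
  exact mul_right_cancel₀ (mul_ne_zero hq₂ hq₁) h4

/-- `G` as an element of `SL(2, ℤ)`. -/
def commSL (K q₁ q₂ x₁ y₁ x₂ y₂ : ℤ) (hq₁ : q₁ ≠ 0) (hq₂ : q₂ ≠ 0)
    (h₁ : x₁ * q₁ + y₁ * (K * q₂) = 1) (h₂ : x₂ * q₂ + y₂ * (K * q₁) = 1) : SL(2, ℤ) :=
  ⟨commG K q₁ q₂ x₁ y₁ x₂ y₂, commG_det K q₁ q₂ x₁ y₁ x₂ y₂ hq₁ hq₂ h₁ h₂⟩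

theorem commSL_mem (M : ℕ) (K q₁ q₂ x₁ y₁ x₂ y₂ : ℤ) (hq₁ : q₁ ≠ 0) (hq₂ : q₂ ≠ 0)
    (h₁ : x₁ * q₁ + y₁ * (K * q₂) = 1) (h₂ : x₂ * q₂ + y₂ * (K * q₁) = 1)
    (hM : (M : ℤ) = K * q₁ * q₂) :
    commSL K q₁ q₂ x₁ y₁ x₂ y₂ hq₁ hq₂ h₁ h₂ ∈ Gamma0 M := by
  rw [Gamma0_mem, ZMod.intCast_zmod_eq_zero_iff_dvd]
  show (M : ℤ) ∣ K * q₁ * q₂ * ((x₂ * q₂ + q₁) * (1 - K * y₁) - (1 - K * y₂) * (x₁ * q₁ + q₂))
  rw [hM]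
  exact Dvd.intro _ rfl

theorem coprime_div {M q : ℕ} (hq : q.Prime) (hqM : q ∣ M) (hq2 : ¬ q ^ 2 ∣ M) :
    Nat.Coprime q (M / q) := by
  obtain ⟨N, rfl, hqN⟩ := exists_eq_mul_of_exact hqM hq2
  rw [Nat.mul_div_cancel N hq.pos]
  exact coprime_of_prime_not_dvd hq hqN

theorem wAt_eq_wInt {M q q' K : ℕ} (hMq : M / q = K * q') :
    wAt M q = wInt K q q' (Int.gcdA (q : ℤ) ((M / q : ℕ) : ℤ))
      (Int.gcdB (q : ℤ) ((M / q : ℕ) : ℤ)) := by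
  unfold wAt wMat wInt
  rw [hMq]
  ext i j
  fin_cases i <;> fin_cases j <;> simp <;> ring

/-- **Two Atkin–Lehner endomorphisms commute**: `ω_q ω_q' = ω_q' ω_q` on `AN M` for primes
`q`, `q'` exactly dividing `M`. -/
theorem omegaAt_comm {M q q' : ℕ} (hq : q.Prime) (hqM : q ∣ M) (hq2 : ¬ q ^ 2 ∣ M)
    (hq' : q'.Prime) (hq'M : q' ∣ M) (hq'2 : ¬ q' ^ 2 ∣ M) :
    (omegaAt M q).comp (omegaAt M q') = (omegaAt M q').comp (omegaAt M q) := by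
  by_cases hqq : q = q'
  · subst hqq
    rfl
  have hcop : Nat.Coprime q q' := (Nat.coprime_primes hq hq').2 hqq
  obtain ⟨K, hK⟩ : q * q' ∣ M := hcop.mul_dvd_of_dvd_of_dvd hqM hq'M
  have hMq : M / q = K * q' := Nat.div_eq_of_eq_mul_left hq.pos (by rw [hK]; ring)
  have hMq' : M / q' = K * q := Nat.div_eq_of_eq_mul_left hq'.pos (by rw [hK]; ring)
  have hq0 : (q : ℤ) ≠ 0 := by exact_mod_cast hq.ne_zero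
  have hq'0 : (q' : ℤ) ≠ 0 := by exact_mod_cast hq'.ne_zero
  have b1 : Int.gcdA (q : ℤ) ((M / q : ℕ) : ℤ) * (q : ℤ)
      + Int.gcdB (q : ℤ) ((M / q : ℕ) : ℤ) * ((K : ℤ) * (q' : ℤ)) = 1 := by
    have h := bezout_gcdA_gcdB (coprime_div hq hqM hq2)
    rw [hMq] at h ⊢
    push_cast at h ⊢
    exact h
  have b2 : Int.gcdA (q' : ℤ) ((M / q' : ℕ) : ℤ) * (q' : ℤ)
      + Int.gcdB (q' : ℤ) ((M / q' : ℕ) : ℤ) * ((K : ℤ) * (q : ℤ)) = 1 := by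
    have h := bezout_gcdA_gcdB (coprime_div hq' hq'M hq'2)
    rw [hMq'] at h ⊢
    push_cast at h ⊢
    exact h
  have hM : (M : ℤ) = (K : ℤ) * (q : ℤ) * (q' : ℤ) := by
    rw [hK]
    push_cast
    ring
  have e1 := wAt_eq_wInt (M := M) (q := q) (q' := q') (K := K) hMq
  have e2 := wAt_eq_wInt (M := M) (q := q') (q' := q) (K := K) hMq'
  have hdet : (wAt M q * wAt M q').det ≠ 0 := by
    rw [Matrix.det_mul]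
    exact mul_ne_zero (wAt_det_ne_zero hq hqM hq2) (wAt_det_ne_zero hq' hq'M hq'2)
  refine IsConjBy.comm (isConjBy_omegaAt hq hqM hq2) (isConjBy_omegaAt hq' hq'M hq'2) hdet
    ⟨commSL (K : ℤ) (q : ℤ) (q' : ℤ) _ _ _ _ hq0 hq'0 b1 b2,
      commSL_mem M (K : ℤ) (q : ℤ) (q' : ℤ) _ _ _ _ hq0 hq'0 b1 b2 hM⟩ ?_
  rw [e1, e2]
  exact commG_mul (K : ℤ) (q : ℤ) (q' : ℤ) _ _ _ _ hq0 hq'0 b1 b2

/-- Character form of `omegaAt_comm`. -/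
theorem comp_omegaAt_comm {M q q' : ℕ} (hq : q.Prime) (hqM : q ∣ M) (hq2 : ¬ q ^ 2 ∣ M)
    (hq' : q'.Prime) (hq'M : q' ∣ M) (hq'2 : ¬ q' ^ 2 ∣ M) {A : Type*} [AddCommGroup A]
    (c : AN M →+ A) :
    (c.comp (omegaAt M q)).comp (omegaAt M q') = (c.comp (omegaAt M q')).comp (omegaAt M q) := by
  rw [AddMonoidHom.comp_assoc, AddMonoidHom.comp_assoc,
    omegaAt_comm hq hqM hq2 hq' hq'M hq'2]

/-- Character form of `omegaAt_omegaAt`. -/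
theorem comp_omegaAt_omegaAt {M q : ℕ} (hq : q.Prime) (hqM : q ∣ M) (hq2 : ¬ q ^ 2 ∣ M)
    {A : Type*} [AddCommGroup A] (c : AN M →+ A) :
    (c.comp (omegaAt M q)).comp (omegaAt M q) = c :=
  AddMonoidHom.ext fun a => congrArg c (omegaAt_omegaAt hq hqM hq2 a)

/-- Character form of `omegaAt_tau`. -/
theorem comp_omegaAt_tau {M q : ℕ} (hq : q.Prime) (hqM : q ∣ M) (hq2 : ¬ q ^ 2 ∣ M) (p : ℕ)
    {A : Type*} [AddCommGroup A] (c : AN M →+ A) :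
    (c.comp (omegaAt M q)).comp (tau M p) = (c.comp (tau M p)).comp (omegaAt M q) := by
  rw [AddMonoidHom.comp_assoc, AddMonoidHom.comp_assoc, omegaAt_tau hq hqM hq2 p]

end Fermat.Agent.S35.Betti.Swap

end
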