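/-
S35 (Program U), Betti side of the Atkin–Lehner swap at level `N ℓ` (`ℓ` prime, `ℓ ∤ N`,
`x ℓ + y N = 1`).  (helper45)

* `flat`      : `Γ₀(N ℓ) →* SL(2, ℤ)`, `[a, b; c, d] ↦ [a, ℓ b; c / ℓ, d]` (conjugation by `diag(ℓ, 1)`);
* `conjW`     : `Γ₀(N ℓ) →* Γ₀(N ℓ)`, `γ ↦ g * flat γ * g⁻¹` with `g = alMat = [x, -y; N, ℓ]`,
                characterised by `(conjW γ) * W = W * γ`, `W = wMat = [x ℓ, -y; N ℓ, ℓ]`;
* `wH_smul`   : `W (γ • τ) = conjW γ • W τ` on the upper half plane;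
* `omega`     : the induced endomorphism of `AN (N ℓ) = Γ₀(N ℓ)^ab / ⟨parabolic, elliptic⟩`,
                an involution (`omega_omega`);
* `compW`     : `H ↦ H ∘ W` on holomorphic functions, `compW (θ a) = θ (swapHom a)`;
* `krel_swap` : the Kummer relation is transported by the swap:
                `KRel (N ℓ) m f c → KRel (N ℓ) m (w f) (c ∘ omega)`.
-/
import Mathlib
import Fermat.Agent.S37.SwapGal
import Fermat.Agent.S30.Producer.Objects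

set_option autoImplicit false
set_option linter.dupNamespace false

noncomputable section

open UpperHalfPlane ModularCurve AlgebraicCurve CongruenceSubgroup ModularForm
open scoped MatrixGroups Manifold

namespace Fermat.Agent.S35.Betti.Swap

open Fermat.Agent.S24.HolH Fermat.Agent.S24.StabAbs Fermat.Agent.S24.Modular
open Fermat.Agent.S24.Theta Fermat.Agent.S37.Swap Fermat.Agent.S30.Producer
open Fermat.Agent.S30.KummerChar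

/-! ### Integer matrices -/

/-- `diag(ℓ, 1)`. -/
def dMat (ℓ : ℕ) : Matrix (Fin 2) (Fin 2) ℤ := !![(ℓ : ℤ), 0; 0, 1]

/-- The Atkin–Lehner matrix `W = [x ℓ, -y; N ℓ, ℓ] = alMat * diag(ℓ, 1)`. -/
def wMat (N ℓ : ℕ) (x y : ℤ) : Matrix (Fin 2) (Fin 2) ℤ :=
  !![x * (ℓ : ℤ), -y; (N : ℤ) * (ℓ : ℤ), (ℓ : ℤ)]

theorem alMat_mul_dMat (N ℓ : ℕ) (x y : ℤ) (h : x * ℓ + y * N = 1) :
    ((alMat N ℓ x y h : SL(2, ℤ)) : Matrix (Fin 2) (Fin 2) ℤ) * dMat ℓ = wMat N ℓ x y := by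
  ext i j
  fin_cases i <;> fin_cases j <;> simp [alMat, dMat, wMat, Matrix.mul_apply, Fin.sum_univ_two]

theorem mul_dMat_cancel {ℓ : ℕ} (hℓ : ℓ ≠ 0) {A B : Matrix (Fin 2) (Fin 2) ℤ}
    (h : A * dMat ℓ = B * dMat ℓ) : A = B := by
  have hℓ' : (ℓ : ℤ) ≠ 0 := by exact_mod_cast hℓ
  ext i j
  have hij := congrFun (congrFun h i) j
  fin_cases j
  · simp [dMat, Matrix.mul_apply, Fin.sum_univ_two] at hij
    rcases hij with hij | hij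
    · exact hij
    · exact absurd hij hℓ
  · simpa [dMat, Matrix.mul_apply, Fin.sum_univ_two] using hij

theorem gamma0_dvd {M : ℕ} (γ : Gamma0 M) :
    (M : ℤ) ∣ ((γ : SL(2, ℤ)) : Matrix (Fin 2) (Fin 2) ℤ) 1 0 := by
  have h := (Gamma0_mem).mp γ.2
  exact (ZMod.intCast_zmod_eq_zero_iff_dvd _ M).mp h

variable {N ℓ : ℕ}

theorem gamma0_dvd_right (γ : Gamma0 (N * ℓ)) :
    (ℓ : ℤ) ∣ ((γ : SL(2, ℤ)) : Matrix (Fin 2) (Fin 2) ℤ) 1 0 := by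
  have h := gamma0_dvd γ
  push_cast at h
  exact dvd_trans (Dvd.intro_left _ rfl) h

theorem gamma0_ediv_mul (γ : Gamma0 (N * ℓ)) :
    ((γ : SL(2, ℤ)) : Matrix (Fin 2) (Fin 2) ℤ) 1 0 / (ℓ : ℤ) * (ℓ : ℤ)
      = ((γ : SL(2, ℤ)) : Matrix (Fin 2) (Fin 2) ℤ) 1 0 :=
  Int.ediv_mul_cancel (gamma0_dvd_right γ)

/-- `[a, b; c, d] ↦ [a, ℓ b; c / ℓ, d]` on `Γ₀(N ℓ)`: conjugation by `diag(ℓ, 1)`. -/
def flatFun (γ : Gamma0 (N * ℓ)) : SL(2, ℤ) :=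
  ⟨!![((γ : SL(2, ℤ)) : Matrix (Fin 2) (Fin 2) ℤ) 0 0,
      (ℓ : ℤ) * ((γ : SL(2, ℤ)) : Matrix (Fin 2) (Fin 2) ℤ) 0 1;
      ((γ : SL(2, ℤ)) : Matrix (Fin 2) (Fin 2) ℤ) 1 0 / (ℓ : ℤ),
      ((γ : SL(2, ℤ)) : Matrix (Fin 2) (Fin 2) ℤ) 1 1], by
    rw [Matrix.det_fin_two_of]
    have h1 := gamma0_ediv_mul γ
    have h2 := Matrix.det_fin_two ((γ : SL(2, ℤ)) : Matrix (Fin 2) (Fin 2) ℤ)
    rw [(γ : SL(2, ℤ)).2] at h2
    linear_combination (-1 : ℤ) * h2 - ((γ : SL(2, ℤ)) : Matrix (Fin 2) (Fin 2) ℤ) 0 1 * h1⟩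

theorem flatFun_mul_dMat (γ : Gamma0 (N * ℓ)) :
    ((flatFun γ : SL(2, ℤ)) : Matrix (Fin 2) (Fin 2) ℤ) * dMat ℓ
      = dMat ℓ * ((γ : SL(2, ℤ)) : Matrix (Fin 2) (Fin 2) ℤ) := by
  have h1 := gamma0_ediv_mul γ
  ext i j
  fin_cases i <;> fin_cases j
  · simp [flatFun, dMat, Matrix.mul_apply, Fin.sum_univ_two, mul_comm]
  · simp [flatFun, dMat, Matrix.mul_apply, Fin.sum_univ_two]
  · simpa [flatFun, dMat, Matrix.mul_apply, Fin.sum_univ_two] using h1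
  · simp [flatFun, dMat, Matrix.mul_apply, Fin.sum_univ_two]

/-- `flat` as a monoid homomorphism `Γ₀(N ℓ) →* SL(2, ℤ)`. -/
def flat (N ℓ : ℕ) [NeZero ℓ] : Gamma0 (N * ℓ) →* SL(2, ℤ) where
  toFun := flatFun
  map_one' := by
    apply Subtype.ext
    apply mul_dMat_cancel (NeZero.ne ℓ)
    rw [flatFun_mul_dMat]
    simp
  map_mul' γ₁ γ₂ := by
    apply Subtype.ext
    apply mul_dMat_cancel (NeZero.ne ℓ)
    rw [flatFun_mul_dMat]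
    show dMat ℓ * (((γ₁ : SL(2, ℤ)) : Matrix (Fin 2) (Fin 2) ℤ)
        * ((γ₂ : SL(2, ℤ)) : Matrix (Fin 2) (Fin 2) ℤ))
      = ((flatFun γ₁ : SL(2, ℤ)) : Matrix (Fin 2) (Fin 2) ℤ)
        * ((flatFun γ₂ : SL(2, ℤ)) : Matrix (Fin 2) (Fin 2) ℤ) * dMat ℓ
    rw [Matrix.mul_assoc, flatFun_mul_dMat, ← Matrix.mul_assoc, ← Matrix.mul_assoc,
      flatFun_mul_dMat]

theorem flat_apply [NeZero ℓ] (γ : Gamma0 (N * ℓ)) : flat N ℓ γ = flatFun γ := rfl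

theorem flat_mul_dMat [NeZero ℓ] (γ : Gamma0 (N * ℓ)) :
    ((flat N ℓ γ : SL(2, ℤ)) : Matrix (Fin 2) (Fin 2) ℤ) * dMat ℓ
      = dMat ℓ * ((γ : SL(2, ℤ)) : Matrix (Fin 2) (Fin 2) ℤ) := flatFun_mul_dMat γ

/-- The underlying element of `conjW γ`: `g * flat γ * g⁻¹`, `g = alMat`. -/
def conjSL [NeZero ℓ] (x y : ℤ) (h : x * ℓ + y * N = 1) : Gamma0 (N * ℓ) →* SL(2, ℤ) :=
  (MulAut.conj (alMat N ℓ x y h)).toMonoidHom.comp (flat N ℓ)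

theorem conjSL_apply [NeZero ℓ] (x y : ℤ) (h : x * ℓ + y * N = 1) (γ : Gamma0 (N * ℓ)) :
    conjSL x y h γ = alMat N ℓ x y h * flat N ℓ γ * (alMat N ℓ x y h)⁻¹ := rfl

/-- **Key relation**: `(conjW γ) * W = W * γ` as integer matrices. -/
theorem conjSL_mul_wMat [NeZero ℓ] (x y : ℤ) (h : x * ℓ + y * N = 1) (γ : Gamma0 (N * ℓ)) :
    ((conjSL x y h γ : SL(2, ℤ)) : Matrix (Fin 2) (Fin 2) ℤ) * wMat N ℓ x y
      = wMat N ℓ x y * ((γ : SL(2, ℤ)) : Matrix (Fin 2) (Fin 2) ℤ) := by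
  rw [conjSL_apply, ← alMat_mul_dMat N ℓ x y h]
  have h1 : (((alMat N ℓ x y h)⁻¹ : SL(2, ℤ)) : Matrix (Fin 2) (Fin 2) ℤ)
      * ((alMat N ℓ x y h : SL(2, ℤ)) : Matrix (Fin 2) (Fin 2) ℤ) = 1 := by
    rw [← Matrix.SpecialLinearGroup.coe_mul, inv_mul_cancel, Matrix.SpecialLinearGroup.coe_one]
  rw [Matrix.SpecialLinearGroup.coe_mul, Matrix.SpecialLinearGroup.coe_mul, Matrix.mul_assoc,
    ← Matrix.mul_assoc _ _ (dMat ℓ), h1, Matrix.one_mul, Matrix.mul_assoc, flat_mul_dMat,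
    Matrix.mul_assoc]

theorem wMat_det (x y : ℤ) (h : x * ℓ + y * N = 1) : (wMat N ℓ x y).det = (ℓ : ℤ) := by
  rw [wMat, Matrix.det_fin_two_of]
  linear_combination (ℓ : ℤ) * h

theorem mul_wMat_cancel (hℓ : ℓ ≠ 0) (x y : ℤ) (h : x * ℓ + y * N = 1)
    {A B : Matrix (Fin 2) (Fin 2) ℤ} (hAB : A * wMat N ℓ x y = B * wMat N ℓ x y) : A = B := by
  have hℓ' : (ℓ : ℤ) ≠ 0 := by exact_mod_cast hℓ
  have h1 := congrArg (fun M => M * (wMat N ℓ x y).adjugate) hAB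
  simp only [Matrix.mul_assoc, Matrix.mul_adjugate, wMat_det x y h, Matrix.mul_smul,
    Matrix.mul_one] at h1
  exact smul_right_injective _ hℓ' h1

theorem conjSL_eq_of_mul_wMat [NeZero ℓ] (x y : ℤ) (h : x * ℓ + y * N = 1) (γ : Gamma0 (N * ℓ))
    {δ : SL(2, ℤ)}
    (hδ : (δ : Matrix (Fin 2) (Fin 2) ℤ) * wMat N ℓ x y
      = wMat N ℓ x y * ((γ : SL(2, ℤ)) : Matrix (Fin 2) (Fin 2) ℤ)) : conjSL x y h γ = δ := by
  apply Subtype.ext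
  apply mul_wMat_cancel (NeZero.ne ℓ) x y h
  rw [conjSL_mul_wMat, hδ]

/-- The lower-left entry of `conjW γ`. -/
theorem conjSL_apply_one_zero [NeZero ℓ] (x y : ℤ) (h : x * ℓ + y * N = 1) (γ : Gamma0 (N * ℓ)) :
    ((conjSL x y h γ : SL(2, ℤ)) : Matrix (Fin 2) (Fin 2) ℤ) 1 0
      = (N : ℤ) * ℓ * (((γ : SL(2, ℤ)) : Matrix (Fin 2) (Fin 2) ℤ) 0 0
          - N * ((γ : SL(2, ℤ)) : Matrix (Fin 2) (Fin 2) ℤ) 0 1
          - ((γ : SL(2, ℤ)) : Matrix (Fin 2) (Fin 2) ℤ) 1 1)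
        + ℓ * ((γ : SL(2, ℤ)) : Matrix (Fin 2) (Fin 2) ℤ) 1 0 := by
  have h1 := gamma0_ediv_mul γ
  rw [conjSL_apply, Matrix.SpecialLinearGroup.coe_mul, Matrix.SpecialLinearGroup.coe_mul,
    Matrix.SpecialLinearGroup.coe_inv, Matrix.adjugate_fin_two]
  simp only [alMat, flat_apply, flatFun, Matrix.mul_apply, Fin.sum_univ_two, Matrix.of_apply,
    Matrix.cons_val', Matrix.cons_val_zero, Matrix.cons_val_one, Matrix.cons_val_fin_one]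
  linear_combination ((ℓ : ℤ)) * h1

theorem conjSL_trace [NeZero ℓ] (x y : ℤ) (h : x * ℓ + y * N = 1) (γ : Gamma0 (N * ℓ)) :
    ((conjSL x y h γ : SL(2, ℤ)) : Matrix (Fin 2) (Fin 2) ℤ).trace
      = ((γ : SL(2, ℤ)) : Matrix (Fin 2) (Fin 2) ℤ).trace := by
  have h1 : (((alMat N ℓ x y h)⁻¹ : SL(2, ℤ)) : Matrix (Fin 2) (Fin 2) ℤ)
      * ((alMat N ℓ x y h : SL(2, ℤ)) : Matrix (Fin 2) (Fin 2) ℤ) = 1 := by
    rw [← Matrix.SpecialLinearGroup.coe_mul, inv_mul_cancel, Matrix.SpecialLinearGroup.coe_one]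
  rw [conjSL_apply, Matrix.SpecialLinearGroup.coe_mul, Matrix.SpecialLinearGroup.coe_mul,
    Matrix.trace_mul_comm, ← Matrix.mul_assoc, h1, Matrix.one_mul]
  simp [flat_apply, flatFun, Matrix.trace_fin_two]

theorem conjSL_mem [NeZero ℓ] (x y : ℤ) (h : x * ℓ + y * N = 1) (γ : Gamma0 (N * ℓ)) :
    conjSL x y h γ ∈ Gamma0 (N * ℓ) := by
  rw [Gamma0_mem, ZMod.intCast_zmod_eq_zero_iff_dvd, conjSL_apply_one_zero]
  have h1 := gamma0_dvd γ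
  push_cast at h1 ⊢
  exact dvd_add (Dvd.intro _ rfl) (Dvd.dvd.mul_left h1 _)

/-- **The Atkin–Lehner conjugation** `γ ↦ W γ W⁻¹` on `Γ₀(N ℓ)`. -/
def conjW [NeZero ℓ] (x y : ℤ) (h : x * ℓ + y * N = 1) : Gamma0 (N * ℓ) →* Gamma0 (N * ℓ) :=
  (conjSL x y h).codRestrict (Gamma0 (N * ℓ)) (conjSL_mem x y h)

theorem coe_conjW [NeZero ℓ] (x y : ℤ) (h : x * ℓ + y * N = 1) (γ : Gamma0 (N * ℓ)) :
    ((conjW x y h γ : Gamma0 (N * ℓ)) : SL(2, ℤ)) = conjSL x y h γ := rfl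

theorem conjW_mul_wMat [NeZero ℓ] (x y : ℤ) (h : x * ℓ + y * N = 1) (γ : Gamma0 (N * ℓ)) :
    (((conjW x y h γ : Gamma0 (N * ℓ)) : SL(2, ℤ)) : Matrix (Fin 2) (Fin 2) ℤ) * wMat N ℓ x y
      = wMat N ℓ x y * ((γ : SL(2, ℤ)) : Matrix (Fin 2) (Fin 2) ℤ) :=
  conjSL_mul_wMat x y h γ

theorem conjW_eq_of_mul_wMat [NeZero ℓ] (x y : ℤ) (h : x * ℓ + y * N = 1) (γ : Gamma0 (N * ℓ))
    {δ : Gamma0 (N * ℓ)}
    (hδ : ((δ : SL(2, ℤ)) : Matrix (Fin 2) (Fin 2) ℤ) * wMat N ℓ x y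
      = wMat N ℓ x y * ((γ : SL(2, ℤ)) : Matrix (Fin 2) (Fin 2) ℤ)) : conjW x y h γ = δ :=
  Subtype.ext (conjSL_eq_of_mul_wMat x y h γ hδ)

theorem conjW_trace [NeZero ℓ] (x y : ℤ) (h : x * ℓ + y * N = 1) (γ : Gamma0 (N * ℓ)) :
    (((conjW x y h γ : Gamma0 (N * ℓ)) : SL(2, ℤ)) : Matrix (Fin 2) (Fin 2) ℤ).trace
      = ((γ : SL(2, ℤ)) : Matrix (Fin 2) (Fin 2) ℤ).trace :=
  conjSL_trace x y h γ

theorem conjW_mem_parEll [NeZero ℓ] (x y : ℤ) (h : x * ℓ + y * N = 1) {γ : Gamma0 (N * ℓ)}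
    (hγ : γ ∈ parEll (N * ℓ)) : conjW x y h γ ∈ parEll (N * ℓ) := by
  rw [mem_parEll] at hγ ⊢
  rw [conjW_trace]
  exact hγ

/-! ### The action on the upper half plane -/

/-- `ℓ (γ τ) = flat γ (ℓ τ)`. -/
theorem scaleH_smul [NeZero ℓ] (γ : Gamma0 (N * ℓ)) (τ : ℍ) :
    scaleH ℓ ((γ : SL(2, ℤ)) • τ) = flat N ℓ γ • scaleH ℓ τ := by
  apply UpperHalfPlane.ext
  rw [coe_scaleH, UpperHalfPlane.coe_specialLinearGroup_apply,
    UpperHalfPlane.coe_specialLinearGroup_apply, coe_scaleH]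
  have hd0 : (ℓ : ℂ) ≠ 0 := by exact_mod_cast NeZero.ne ℓ
  have hden := UpperHalfPlane.denom_ne_zero
    (Matrix.SpecialLinearGroup.toGL ((Matrix.SpecialLinearGroup.map (Int.castRingHom ℝ))
      (γ : SL(2, ℤ)))) τ
  rw [ModularGroup.denom_apply] at hden
  have h1 : (ℓ : ℤ) * (((γ : SL(2, ℤ)) : Matrix (Fin 2) (Fin 2) ℤ) 1 0 / (ℓ : ℤ))
      = ((γ : SL(2, ℤ)) : Matrix (Fin 2) (Fin 2) ℤ) 1 0 :=
    Int.mul_ediv_cancel' (gamma0_dvd_right γ)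
  simp only [flat_apply, flatFun, Matrix.of_apply, Matrix.cons_val',
    Matrix.cons_val_zero, Matrix.cons_val_one, Matrix.cons_val_fin_one,
    algebraMap_int_eq, Int.coe_castRingHom, Int.cast_mul, Int.cast_natCast]
  generalize ((γ : SL(2, ℤ)) : Matrix (Fin 2) (Fin 2) ℤ) 1 0 / (ℓ : ℤ) = c' at h1 ⊢
  have hc'' : ((((γ : SL(2, ℤ)) : Matrix (Fin 2) (Fin 2) ℤ) 1 0 : ℤ) : ℂ)
      = (ℓ : ℂ) * (c' : ℂ) := by
    exact_mod_cast h1.symm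
  push_cast
  rw [hc''] at hden
  have hden' : (c' : ℂ) * ((ℓ : ℂ) * (τ : ℂ))
      + ((((γ : SL(2, ℤ)) : Matrix (Fin 2) (Fin 2) ℤ) 1 1 : ℤ) : ℂ) ≠ 0 := by
    intro h0
    apply hden
    rw [← h0]
    ring
  rw [hc'']
  field_simp

/-- **`W (γ τ) = (conjW γ) (W τ)`.** -/
theorem wH_smul [NeZero N] [NeZero ℓ] (x y : ℤ) (h : x * ℓ + y * N = 1) (γ : Gamma0 (N * ℓ))
    (τ : ℍ) :
    wH x y h ((γ : SL(2, ℤ)) • τ) = ((conjW x y h γ : Gamma0 (N * ℓ)) : SL(2, ℤ)) • wH x y h τ := by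
  rw [wH, wH, scaleH_smul, coe_conjW, conjSL_apply, ← mul_smul, ← mul_smul, inv_mul_cancel_right]

/-! ### The endomorphism `ω` of `AN (N ℓ)` -/

/-- The Atkin–Lehner endomorphism of `AN (N ℓ) = Γ₀(N ℓ)^ab / ⟨parabolic, elliptic⟩`. -/
def omega [NeZero ℓ] (x y : ℤ) (h : x * ℓ + y * N = 1) : AN (N * ℓ) →+ AN (N * ℓ) :=
  lift ((proj (N * ℓ)).comp (MonoidHom.toAdditive (conjW x y h)))
    (fun _ hγ => proj_parEll (conjW_mem_parEll x y h hγ))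

theorem omega_proj [NeZero ℓ] (x y : ℤ) (h : x * ℓ + y * N = 1) (γ : Gamma0 (N * ℓ)) :
    omega x y h (proj (N * ℓ) (Additive.ofMul γ))
      = proj (N * ℓ) (Additive.ofMul (conjW x y h γ)) := rfl

/-- `η = W² / ℓ = [x² ℓ - y N, -x y - y; N ℓ (x + 1), ℓ - N y] ∈ Γ₀(N ℓ)`. -/
def etaSL (N ℓ : ℕ) (x y : ℤ) (h : x * ℓ + y * N = 1) : SL(2, ℤ) :=
  ⟨!![x ^ 2 * ℓ - y * N, -x * y - y; (N : ℤ) * ℓ * (x + 1), ℓ - N * y], by
    rw [Matrix.det_fin_two_of]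
    linear_combination (x * ℓ + y * N + 1) * h⟩

theorem etaSL_mem (N ℓ : ℕ) (x y : ℤ) (h : x * ℓ + y * N = 1) :
    etaSL N ℓ x y h ∈ Gamma0 (N * ℓ) := by
  rw [Gamma0_mem, ZMod.intCast_zmod_eq_zero_iff_dvd]
  show ((N * ℓ : ℕ) : ℤ) ∣ (N : ℤ) * ℓ * (x + 1)
  push_cast
  exact Dvd.intro _ rfl

/-- `η` as an element of `Γ₀(N ℓ)`. -/
def eta (N ℓ : ℕ) (x y : ℤ) (h : x * ℓ + y * N = 1) : Gamma0 (N * ℓ) :=
  ⟨etaSL N ℓ x y h, etaSL_mem N ℓ x y h⟩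

theorem wMat_mul_wMat (x y : ℤ) (h : x * ℓ + y * N = 1) :
    wMat N ℓ x y * wMat N ℓ x y
      = (ℓ : ℤ) • ((etaSL N ℓ x y h : SL(2, ℤ)) : Matrix (Fin 2) (Fin 2) ℤ) := by
  ext i j
  fin_cases i <;> fin_cases j <;>
    simp [wMat, etaSL, Matrix.mul_apply, Fin.sum_univ_two] <;> ring

/-- `conjW (conjW γ) = η γ η⁻¹`. -/
theorem conjW_conjW [NeZero ℓ] (x y : ℤ) (h : x * ℓ + y * N = 1) (γ : Gamma0 (N * ℓ)) :
    conjW x y h (conjW x y h γ) = eta N ℓ x y h * γ * (eta N ℓ x y h)⁻¹ := by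
  have hℓ' : (ℓ : ℤ) ≠ 0 := by exact_mod_cast NeZero.ne ℓ
  have h1 := conjW_mul_wMat x y h (conjW x y h γ)
  have h2 := conjW_mul_wMat x y h γ
  have h3 : (((conjW x y h (conjW x y h γ) : Gamma0 (N * ℓ)) : SL(2, ℤ)) :
        Matrix (Fin 2) (Fin 2) ℤ) * (wMat N ℓ x y * wMat N ℓ x y)
      = (wMat N ℓ x y * wMat N ℓ x y) * ((γ : SL(2, ℤ)) : Matrix (Fin 2) (Fin 2) ℤ) := by
    rw [← Matrix.mul_assoc, h1, Matrix.mul_assoc, h2, Matrix.mul_assoc]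
  rw [wMat_mul_wMat x y h, Matrix.mul_smul, Matrix.smul_mul] at h3
  have h4 := smul_right_injective _ hℓ' h3
  rw [eq_mul_inv_iff_mul_eq]
  apply Subtype.ext
  apply Subtype.ext
  exact h4

theorem omega_omega [NeZero ℓ] (x y : ℤ) (h : x * ℓ + y * N = 1) (a : AN (N * ℓ)) :
    omega x y h (omega x y h a) = a := by
  obtain ⟨γ, rfl⟩ := proj_surjective (N * ℓ) a
  have h1 : omega x y h (omega x y h (proj (N * ℓ) γ))
      = proj (N * ℓ) (Additive.ofMul (conjW x y h (conjW x y h (Additive.toMul γ)))) := rfl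
  rw [h1, conjW_conjW]
  have h2 : ∀ g₁ g₂ : Gamma0 (N * ℓ), proj (N * ℓ) (Additive.ofMul (g₁ * g₂))
      = proj (N * ℓ) (Additive.ofMul g₁) + proj (N * ℓ) (Additive.ofMul g₂) := fun g₁ g₂ => by
    rw [ofMul_mul, map_add]
  have h3 : ∀ g₁ : Gamma0 (N * ℓ), proj (N * ℓ) (Additive.ofMul g₁⁻¹)
      = - proj (N * ℓ) (Additive.ofMul g₁) := fun g₁ => by
    rw [ofMul_inv, map_neg]
  rw [h2, h2, h3]
  have h4 : Additive.ofMul (Additive.toMul γ) = γ := rfl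
  rw [h4]
  abel

theorem omega_comp_omega [NeZero ℓ] (x y : ℤ) (h : x * ℓ + y * N = 1) :
    (omega x y h).comp (omega x y h) = AddMonoidHom.id (AN (N * ℓ)) :=
  AddMonoidHom.ext fun a => omega_omega x y h a

/-! ### Precomposition with `W` on holomorphic functions -/

theorem scaleH_eq_smul [NeZero ℓ] (τ : ℍ) : scaleH ℓ τ = heckeDiagMatrix ℓ • τ := by
  apply UpperHalfPlane.ext
  rw [coe_scaleH, coe_heckeDiagMatrix_smul (NeZero.ne ℓ)]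

theorem mdifferentiable_wH [NeZero N] [NeZero ℓ] (x y : ℤ) (h : x * ℓ + y * N = 1) :
    MDifferentiable 𝓘(ℂ) 𝓘(ℂ) (wH x y h : ℍ → ℍ) := by
  have hg : (0 : ℝ) < ((alMat N ℓ x y h : GL (Fin 2) ℝ)).det.val := by simp
  have h1 : (wH x y h : ℍ → ℍ)
      = (fun τ : ℍ => (alMat N ℓ x y h : GL (Fin 2) ℝ) • τ) ∘ (fun τ : ℍ => heckeDiagMatrix ℓ • τ) := by
    funext τ
    show alMat N ℓ x y h • scaleH ℓ τ = _
    rw [scaleH_eq_smul]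
    rfl
  rw [h1]
  exact (mdifferentiable_smul hg).comp (mdifferentiable_smul (det_heckeDiagMatrix_pos ℓ))

/-- Precomposition with `W` as an algebra endomorphism of `HolH`. -/
def compW [NeZero N] [NeZero ℓ] (x y : ℤ) (h : x * ℓ + y * N = 1) : HolH →ₐ[ℂ] HolH where
  toFun f := ⟨fun τ => (f : ℍ → ℂ) (wH x y h τ),
    (f.2 : MDifferentiable 𝓘(ℂ) 𝓘(ℂ) (f : ℍ → ℂ)).comp (mdifferentiable_wH x y h)⟩
  map_one' := rfl
  map_mul' _ _ := rfl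
  map_zero' := rfl
  map_add' _ _ := rfl
  commutes' _ := rfl

@[simp]
theorem compW_apply [NeZero N] [NeZero ℓ] (x y : ℤ) (h : x * ℓ + y * N = 1) (f : HolH) (τ : ℍ) :
    (compW x y h f : ℍ → ℂ) τ = (f : ℍ → ℂ) (wH x y h τ) := rfl

/-- `compSL γ ∘ compW = compW ∘ compSL (conjW γ)`. -/
theorem compSL_compW [NeZero N] [NeZero ℓ] (x y : ℤ) (h : x * ℓ + y * N = 1)
    (γ : Gamma0 (N * ℓ)) (f : HolH) :
    compSL (γ : SL(2, ℤ)) (compW x y h f)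
      = compW x y h (compSL ((conjW x y h γ : Gamma0 (N * ℓ)) : SL(2, ℤ)) f) := by
  apply Subtype.ext
  funext τ
  show (f : ℍ → ℂ) (wH x y h ((γ : SL(2, ℤ)) • τ))
    = (f : ℍ → ℂ) (((conjW x y h γ : Gamma0 (N * ℓ)) : SL(2, ℤ)) • wH x y h τ)
  rw [wH_smul]

variable (ι : Kbar →+* ℂ)

/-- `θ(a) ∘ W = θ(swap a)`. -/
theorem compW_theta [NeZero N] [NeZero ℓ] (x y : ℤ) (h : x * ℓ + y * N = 1) (hℓ : ℓ.Prime)
    (a : A0 (N * ℓ)) :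
    compW x y h (theta ι (N * ℓ) a) = theta ι (N * ℓ) (swapHom ι x y h hℓ a) := by
  apply Subtype.ext
  funext τ
  exact (swapFun_spec ι x y h hℓ a τ).symm

theorem swapHom_ne_zero [NeZero N] [NeZero ℓ] (x y : ℤ) (h : x * ℓ + y * N = 1) (hℓ : ℓ.Prime)
    {a : A0 (N * ℓ)} (ha : a ≠ 0) : swapHom ι x y h hℓ a ≠ 0 := by
  intro h0
  apply ha
  rw [← swapHom_swapHom ι x y h hℓ a, h0, map_zero]

/-- The swap transports Kummer roots: if `H` is a root for `(a, b)` then `H ∘ W` is a root for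
`(swap a, swap b)`. -/
theorem isKummerRoot_compW [NeZero N] [NeZero ℓ] (x y : ℤ) (h : x * ℓ + y * N = 1)
    (hℓ : ℓ.Prime) {m : ℕ} {a b : A0 (N * ℓ)} {H : HolH} (hH : IsKummerRoot ι m a b H) :
    IsKummerRoot ι m (swapHom ι x y h hℓ a) (swapHom ι x y h hℓ b) (compW x y h H) := by
  unfold IsKummerRoot at hH ⊢
  rw [← map_pow, hH, map_mul, map_pow, compW_theta ι x y h hℓ, compW_theta ι x y h hℓ]

/-- The multiplier of `H ∘ W` at `γ` is the multiplier of `H` at `conjW γ`. -/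
theorem mult_compW [NeZero N] [NeZero ℓ] (x y : ℤ) (h : x * ℓ + y * N = 1) (hℓ : ℓ.Prime)
    {m : ℕ} (hm : 0 < m) {a b : A0 (N * ℓ)} (ha : a ≠ 0) (hb : b ≠ 0) {H : HolH}
    (hH : IsKummerRoot ι m a b H) (γ : Gamma0 (N * ℓ)) :
    mult (γ : SL(2, ℤ)) (compW x y h H)
      = mult ((conjW x y h γ : Gamma0 (N * ℓ)) : SL(2, ℤ)) H := by
  have hH' := (isKummerRoot_compW ι x y h hℓ hH).ne_zero hm (swapHom_ne_zero ι x y h hℓ ha)
    (swapHom_ne_zero ι x y h hℓ hb)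
  apply mult_eq_of_eq hH'
  rw [compSL_compW, (hH.isEig hm (conjW x y h γ).2).compSL_eq, map_mul, AlgHom.commutes]

/-- **The Kummer relation is transported by the Atkin–Lehner swap.** -/
theorem krel_swap [NeZero N] [NeZero ℓ] (x y : ℤ) (h : x * ℓ + y * N = 1) (hℓ : ℓ.Prime)
    {m : ℕ} [NeZero m] {f : Fermat.Agent.S30.Producer.FN (N * ℓ)} {c : AN (N * ℓ) →+ ZMod m}
    (hf : KRel (N * ℓ) m f c) :
    KRel (N * ℓ) m (swapField iotaBar x y h hℓ f) (c.comp (omega x y h)) := by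
  obtain ⟨hf0, hdiv, a, b, H, ha, hb, hab, hroot, hmult⟩ := hf
  have hm : 0 < m := Nat.pos_of_ne_zero (NeZero.ne m)
  refine ⟨?_, ?_, swapHom iotaBar x y h hℓ a, swapHom iotaBar x y h hℓ b, compW x y h H,
    swapHom_ne_zero iotaBar x y h hℓ ha, swapHom_ne_zero iotaBar x y h hℓ hb, ?_,
    isKummerRoot_compW iotaBar x y h hℓ hroot, ?_⟩
  · exact (map_ne_zero_iff _ (swapField iotaBar x y h hℓ).injective).mpr hf0
  · intro P
    set g : SemilinearAut Kbar (Fermat.Agent.S30.Producer.FN (N * ℓ)) :=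
      SemilinearAut.ofAlgAut (swapField iotaBar x y h hℓ) with hg
    have h1 : (g • (g⁻¹ • P)).ord (g • f) = (g⁻¹ • P).ord f :=
      SemilinearAut.ord_smul g (g⁻¹ • P) f
    rw [smul_inv_smul] at h1
    have h2 : g • f = swapField iotaBar x y h hℓ f := rfl
    rw [← h2, h1]
    exact hdiv _
  · rw [← swapField_coe, ← swapField_coe, ← map_mul, hab]
  · intro γ
    rw [mult_compW iotaBar x y h hℓ hm ha hb hroot γ, hmult]
    rfl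

end Fermat.Agent.S35.Betti.Swap

end
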