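/-
S35 (Program U), Betti side of the Atkin–Lehner swap, part 2: `ω` commutes with the Hecke
correspondences `τ_p` on `AN (N ℓ)`.  (helper45)

Coset argument: `W t_i = u_i t_{σ i} W` with `u_i ∈ Γ₀(N ℓ)`, `σ` a permutation of `ℙ¹(𝔽_p)`
(integer matrices; this is `S41.Degen.exists_perm_wq_T`), hence
`coc (conjW γ) (σ i) = u_i⁻¹ * conjW (coc γ i) * u_{i·γ}` and the transfer commutes with `conjW`
modulo commutators.

* `omega_tau`        : `ω ∘ τ_p = τ_p ∘ ω` on `AN (N ℓ)` (every `p`; `τ_p = 0` unless `p` is a prime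
                       not dividing `N ℓ`);
* `exists_swap_krel` : the packaged statement — ONE automorphism `w` of `F_{Nℓ}` and ONE
                       endomorphism `ω` of `AN (N ℓ)` with all the properties.
-/
import Mathlib
import Fermat.Agent.S35.Betti.Swap
import Fermat.Agent.S41.DegenHeckeReps
import Fermat.Agent.S30.Producer.THomParEll
import Fermat.Agent.S30.BettiHecke.Involution

set_option autoImplicit false
set_option linter.dupNamespace false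

noncomputable section

open UpperHalfPlane ModularCurve AlgebraicCurve CongruenceSubgroup ModularForm
open scoped MatrixGroups Manifold

namespace Fermat.Agent.S35.Betti.Swap

open Fermat.Agent.S24.HolH Fermat.Agent.S24.StabAbs Fermat.Agent.S24.Modular
open Fermat.Agent.S24.Theta Fermat.Agent.S37.Swap Fermat.Agent.S30.Producer
open Fermat.Agent.S30.KummerChar Fermat.Agent.S30.BettiHecke Fermat.Agent.S22.HeckePerm

variable {N ℓ : ℕ}

/-! ### The coset relation `W t_i = u_i t_{σ i} W` -/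

/-- The Bezout datum `ℓ x - N (-y) = 1` in the convention of `S41.Degen`. -/
def bezOf (N ℓ : ℕ) (x y : ℤ) (h : x * ℓ + y * N = 1) : Fermat.Agent.S41.Degen.Bez N ℓ :=
  ⟨x, -y, by linear_combination h⟩

theorem wq_bezOf [Fact ℓ.Prime] (x y : ℤ) (h : x * ℓ + y * N = 1) :
    ((Fermat.Agent.S41.Degen.wq (bezOf N ℓ x y h) : Fermat.Agent.S41.IntMat.MPos) :
      Matrix (Fin 2) (Fin 2) ℤ) = wMat N ℓ x y := by
  rw [Fermat.Agent.S41.Degen.wq_val]
  show !![(ℓ : ℤ) * x, -y; (N : ℤ) * ℓ, (ℓ : ℤ)] = !![x * (ℓ : ℤ), -y; (N : ℤ) * (ℓ : ℤ), (ℓ : ℤ)]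
  rw [mul_comm]

theorem tfam_val {p : ℕ} [Fact p.Prime] (i : Option (ZMod p)) :
    ((Fermat.Agent.S41.Degen.Tfam p i : Fermat.Agent.S41.IntMat.MPos) :
      Matrix (Fin 2) (Fin 2) ℤ) = tMat p i := by
  rcases i with _ | j
  · rfl
  · rfl

/-- `W t_i = u_i t_{σ i} W` with `u_i ∈ Γ₀(N ℓ)` and `σ` a permutation of `ℙ¹(𝔽_p)`. -/
theorem exists_perm_wMat (x y : ℤ) (h : x * ℓ + y * N = 1) (hℓ : ℓ.Prime) {p : ℕ} (hp : p.Prime)
    (hpM : ¬ p ∣ N * ℓ) :
    ∃ (σ : Equiv.Perm (OnePoint (ZMod p))) (u : OnePoint (ZMod p) → Gamma0 (N * ℓ)),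
      ∀ i, wMat N ℓ x y * tMat p i
        = ((u i : SL(2, ℤ)) : Matrix (Fin 2) (Fin 2) ℤ) * tMat p (σ i) * wMat N ℓ x y := by
  have : Fact ℓ.Prime := ⟨hℓ⟩
  have : Fact p.Prime := ⟨hp⟩
  obtain ⟨σ, hσ⟩ := Fermat.Agent.S41.Degen.exists_perm_wq_T (bezOf N ℓ x y h) hpM
  choose u hu hrel using hσ
  refine ⟨σ, fun i => ⟨u i, hu i⟩, fun i => ?_⟩
  have h1 := congrArg (fun A : Fermat.Agent.S41.IntMat.MPos => (A : Matrix (Fin 2) (Fin 2) ℤ))
    (hrel i)
  simp only [Submonoid.coe_mul, Fermat.Agent.S41.IntMat.ofSL_val, wq_bezOf] at h1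
  have e1 : ((Fermat.Agent.S41.Degen.Tfam p i : Fermat.Agent.S41.IntMat.MPos) :
      Matrix (Fin 2) (Fin 2) ℤ) = tMat p i := tfam_val i
  have e2 : ((Fermat.Agent.S41.Degen.Tfam p (σ i) : Fermat.Agent.S41.IntMat.MPos) :
      Matrix (Fin 2) (Fin 2) ℤ) = tMat p (σ i) := tfam_val (σ i)
  rw [e1, e2] at h1
  exact h1

/-- Formal part of the coset computation. -/
theorem coset_aux {M : Type*} [Monoid M] {W Ti Tj Tk Tl G G' C C' U U' Uinv : M}
    (h1 : W * Ti = U * Tj * W) (h2 : G' * W = W * G) (h3 : Ti * G = C * Tk)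
    (h4 : C' * W = W * C) (h5 : W * Tk = U' * Tl * W) (hU : Uinv * U = 1)
    (hcancel : ∀ A B : M, A * W = B * W → A = B) : Tj * G' = Uinv * C' * U' * Tl := by
  have key : U * Tj * G' = C' * U' * Tl := by
    apply hcancel
    calc U * Tj * G' * W = U * Tj * (G' * W) := by rw [mul_assoc]
      _ = U * Tj * (W * G) := by rw [h2]
      _ = U * Tj * W * G := by rw [← mul_assoc]
      _ = W * Ti * G := by rw [← h1]
      _ = W * (Ti * G) := by rw [mul_assoc]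
      _ = W * (C * Tk) := by rw [h3]
      _ = W * C * Tk := by rw [← mul_assoc]
      _ = C' * W * Tk := by rw [← h4]
      _ = C' * (W * Tk) := by rw [mul_assoc]
      _ = C' * (U' * Tl * W) := by rw [h5]
      _ = C' * U' * Tl * W := by simp only [mul_assoc]
  calc Tj * G' = Uinv * U * Tj * G' := by rw [hU, one_mul]
    _ = Uinv * (U * Tj * G') := by simp only [mul_assoc]
    _ = Uinv * (C' * U' * Tl) := by rw [key]
    _ = Uinv * C' * U' * Tl := by simp only [mul_assoc]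

/-- **The coset cocycle and `conjW`**:
`coc (conjW γ) (σ i) = u_i⁻¹ * conjW (coc γ i) * u_{i·γ}`. -/
theorem coc_conjW [NeZero ℓ] (x y : ℤ) (h : x * ℓ + y * N = 1) {p : ℕ} (hp : p.Prime)
    (hpM : ¬ p ∣ N * ℓ) (σ : Equiv.Perm (OnePoint (ZMod p)))
    (u : OnePoint (ZMod p) → Gamma0 (N * ℓ))
    (hrel : ∀ i, wMat N ℓ x y * tMat p i
      = ((u i : SL(2, ℤ)) : Matrix (Fin 2) (Fin 2) ℤ) * tMat p (σ i) * wMat N ℓ x y)
    (γ : Gamma0 (N * ℓ)) (i : OnePoint (ZMod p)) :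
    rPerm hp ((conjW x y h γ : Gamma0 (N * ℓ)) : SL(2, ℤ)) (σ i)
        = σ (rPerm hp (γ : SL(2, ℤ)) i) ∧
      coc hp hpM (conjW x y h γ) (σ i)
        = (u i)⁻¹ * conjW x y h (coc hp hpM γ i) * u (rPerm hp (γ : SL(2, ℤ)) i) := by
  have hU : ((((u i)⁻¹ : Gamma0 (N * ℓ)) : SL(2, ℤ)) : Matrix (Fin 2) (Fin 2) ℤ)
      * ((u i : SL(2, ℤ)) : Matrix (Fin 2) (Fin 2) ℤ) = 1 := by
    rw [← Matrix.SpecialLinearGroup.coe_mul, ← Subgroup.coe_mul, inv_mul_cancel]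
    rfl
  have key := coset_aux (hrel i) (conjW_mul_wMat x y h γ) (coc_spec_int hp hpM γ i)
    (conjW_mul_wMat x y h (coc hp hpM γ i)) (hrel (rPerm hp (γ : SL(2, ℤ)) i)) hU
    (fun A B hAB => mul_wMat_cancel (NeZero.ne ℓ) x y h hAB)
  have key' : tMat p (σ i) * (((conjW x y h γ : Gamma0 (N * ℓ)) : SL(2, ℤ)) :
        Matrix (Fin 2) (Fin 2) ℤ)
      = ((((u i)⁻¹ * conjW x y h (coc hp hpM γ i) * u (rPerm hp (γ : SL(2, ℤ)) i) :
          Gamma0 (N * ℓ)) : SL(2, ℤ)) : Matrix (Fin 2) (Fin 2) ℤ)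
        * tMat p (σ (rPerm hp (γ : SL(2, ℤ)) i)) := key
  obtain ⟨h1, h2⟩ := coc_unique_int hp hpM (conjW x y h γ) (σ i) (σ (rPerm hp (γ : SL(2, ℤ)) i))
    _ key'
  exact ⟨h1, Subtype.ext h2⟩

/-! ### `ω` commutes with the transfer -/

theorem proj_mul' (M : ℕ) (g₁ g₂ : Gamma0 M) :
    proj M (Additive.ofMul (g₁ * g₂))
      = proj M (Additive.ofMul g₁) + proj M (Additive.ofMul g₂) := by
  rw [ofMul_mul, map_add]

theorem proj_inv' (M : ℕ) (g : Gamma0 M) :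
    proj M (Additive.ofMul g⁻¹) = - proj M (Additive.ofMul g) := by
  rw [ofMul_inv, map_neg]

theorem tauHom_apply (M : ℕ) {p : ℕ} [NeZero p] (hp : p.Prime) (hpM : ¬ p ∣ M) (γ : Gamma0 M) :
    tauHom M hp hpM (Additive.ofMul γ)
      = ∑ i : OnePoint (ZMod p), proj M (Additive.ofMul (coc hp hpM γ i)) := rfl

/-- The transfer commutes with the Atkin–Lehner conjugation. -/
theorem tauHom_conjW [NeZero ℓ] (x y : ℤ) (h : x * ℓ + y * N = 1) (hℓ : ℓ.Prime) {p : ℕ}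
    (hp : p.Prime) (hpM : ¬ p ∣ N * ℓ) (γ : Gamma0 (N * ℓ)) :
    tauHom (N * ℓ) hp hpM (Additive.ofMul (conjW x y h γ))
      = omega x y h (tauHom (N * ℓ) hp hpM (Additive.ofMul γ)) := by
  have : NeZero p := ⟨hp.ne_zero⟩
  obtain ⟨σ, u, hrel⟩ := exists_perm_wMat x y h hℓ hp hpM
  rw [tauHom_apply, tauHom_apply, map_sum,
    ← Equiv.sum_comp σ (fun i => proj (N * ℓ) (Additive.ofMul (coc hp hpM (conjW x y h γ) i)))]
  have h1 : ∀ i : OnePoint (ZMod p),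
      proj (N * ℓ) (Additive.ofMul (coc hp hpM (conjW x y h γ) (σ i)))
        = omega x y h (proj (N * ℓ) (Additive.ofMul (coc hp hpM γ i)))
          + (proj (N * ℓ) (Additive.ofMul (u (rPerm hp (γ : SL(2, ℤ)) i)))
            - proj (N * ℓ) (Additive.ofMul (u i))) := by
    intro i
    rw [(coc_conjW x y h hp hpM σ u hrel γ i).2, proj_mul', proj_mul', proj_inv', omega_proj]
    abel
  rw [Finset.sum_congr rfl (fun i _ => h1 i), Finset.sum_add_distrib, Finset.sum_sub_distrib,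
    Equiv.sum_comp (rPerm hp (γ : SL(2, ℤ))) (fun i => proj (N * ℓ) (Additive.ofMul (u i))),
    sub_self, add_zero]

/-- **`ω` commutes with the Hecke correspondence `τ_p`** (`p` prime, `p ∤ N ℓ`). -/
theorem omega_tau_apply [NeZero ℓ] (x y : ℤ) (h : x * ℓ + y * N = 1) (hℓ : ℓ.Prime) {p : ℕ}
    (hp : p.Prime) (hpM : ¬ p ∣ N * ℓ) (a : AN (N * ℓ)) :
    omega x y h (tau (N * ℓ) p a) = tau (N * ℓ) p (omega x y h a) := by
  obtain ⟨γ, rfl⟩ := proj_surjective (N * ℓ) a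
  have e1 : omega x y h (proj (N * ℓ) γ)
      = proj (N * ℓ) (Additive.ofMul (conjW x y h (Additive.toMul γ))) := rfl
  rw [e1, tau_proj_eq (N * ℓ) hp hpM, tau_proj_eq (N * ℓ) hp hpM, tauHom_conjW x y h hℓ hp hpM]
  rfl

theorem tau_eq_zero_of_not (M p : ℕ) (hp : ¬ (p.Prime ∧ ¬ p ∣ M)) : tau M p = 0 := by
  unfold tau
  rw [dif_neg]
  rintro ⟨h1, h2, -⟩
  exact hp ⟨h1, h2⟩

/-- `ω ∘ τ_p = τ_p ∘ ω` for every `p` (`τ_p = 0` unless `p` is a prime not dividing `N ℓ`). -/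
theorem omega_tau [NeZero ℓ] (x y : ℤ) (h : x * ℓ + y * N = 1) (hℓ : ℓ.Prime) (p : ℕ) :
    (omega x y h).comp (tau (N * ℓ) p) = (tau (N * ℓ) p).comp (omega x y h) := by
  by_cases hp : p.Prime ∧ ¬ p ∣ N * ℓ
  · exact AddMonoidHom.ext fun a => omega_tau_apply x y h hℓ hp.1 hp.2 a
  · rw [tau_eq_zero_of_not (N * ℓ) p hp]
    ext a
    simp

/-- Character form: `(c ∘ τ_p) ∘ ω = (c ∘ ω) ∘ τ_p`. -/
theorem comp_tau_comp_omega [NeZero ℓ] (x y : ℤ) (h : x * ℓ + y * N = 1) (hℓ : ℓ.Prime) (p : ℕ)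
    {A : Type*} [AddCommGroup A] (c : AN (N * ℓ) →+ A) :
    (c.comp (tau (N * ℓ) p)).comp (omega x y h) = (c.comp (omega x y h)).comp (tau (N * ℓ) p) := by
  rw [AddMonoidHom.comp_assoc, AddMonoidHom.comp_assoc, omega_tau x y h hℓ p]

/-! ### The packaged statement -/

local notation "Gq" => (AlgebraicClosure ℚ ≃ₐ[ℚ] AlgebraicClosure ℚ)

/-- **The Atkin–Lehner swap on functions and on the Betti lattice, packaged.**
For a prime `ℓ ∤ N` there are a `ℚ̄`-algebra automorphism `w` of `F_{Nℓ}` and an endomorphism `ω`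
of `AN (N ℓ)` such that
* `w` exchanges the degeneracy maps, is an involution, commutes with the coefficientwise Galois
  action, exchanges `j(q^d)` and `j(q^{dℓ})` (the six properties of `S37.SwapGal.exists_swap_gal`);
* `ω` is an involution and commutes with every `τ_p`;
* `w` acts on Kummer characters through `ω`: `KRel f c → KRel (w f) (c ∘ ω)`. -/
theorem exists_swap_krel (N ℓ : ℕ) [NeZero N] [NeZero ℓ] (hℓ : ℓ.Prime) (hℓN : ¬ ℓ ∣ N) :
    ∃ (w : Fermat.Agent.S30.Producer.FN (N * ℓ) ≃ₐ[Kbar] Fermat.Agent.S30.Producer.FN (N * ℓ))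
      (ω : AN (N * ℓ) →+ AN (N * ℓ)),
      (∀ f : Fermat.Agent.S30.Producer.FN N,
        w (heckeAlphaBar Kbar N ℓ f) = heckeBetaBar Kbar N ℓ f) ∧
      (∀ f : Fermat.Agent.S30.Producer.FN N,
        w (heckeBetaBar Kbar N ℓ f) = heckeAlphaBar Kbar N ℓ f) ∧
      (∀ z : Fermat.Agent.S30.Producer.FN (N * ℓ), w (w z) = z) ∧
      (∀ (σ : Gq) (z : Fermat.Agent.S30.Producer.FN (N * ℓ)),
        w (arithmeticRingAut (modularFunctionFieldFull (N * ℓ)) σ z)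
          = arithmeticRingAut (modularFunctionFieldFull (N * ℓ)) σ (w z)) ∧
      (∀ (d : ℕ) [NeZero d] (hd : d ∣ N),
        w (gen (N * ℓ) d (Dvd.dvd.mul_right hd ℓ) : Fermat.Agent.S30.Producer.FN (N * ℓ))
          = (gen (N * ℓ) (d * ℓ) (mul_dvd_mul_right hd ℓ) :
            Fermat.Agent.S30.Producer.FN (N * ℓ))) ∧
      (∀ (d : ℕ) [NeZero d] (hd : d ∣ N),
        w (gen (N * ℓ) (d * ℓ) (mul_dvd_mul_right hd ℓ) : Fermat.Agent.S30.Producer.FN (N * ℓ))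
          = (gen (N * ℓ) d (Dvd.dvd.mul_right hd ℓ) : Fermat.Agent.S30.Producer.FN (N * ℓ))) ∧
      (∀ a : AN (N * ℓ), ω (ω a) = a) ∧
      (∀ p : ℕ, ω.comp (tau (N * ℓ) p) = (tau (N * ℓ) p).comp ω) ∧
      (∀ (m : ℕ) [NeZero m] (f : Fermat.Agent.S30.Producer.FN (N * ℓ))
        (c : AN (N * ℓ) →+ ZMod m), KRel (N * ℓ) m f c → KRel (N * ℓ) m (w f) (c.comp ω)) := by
  obtain ⟨x, y, h⟩ := exists_bezout ((Nat.Prime.coprime_iff_not_dvd hℓ).2 hℓN)
  exact ⟨swapField iotaBar x y h hℓ, omega x y h, swapField_alpha iotaBar x y h hℓ,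
    swapField_beta iotaBar x y h hℓ, swapField_swapField iotaBar x y h hℓ,
    Fermat.Agent.S37.SwapGal.swapField_gal iotaBar x y h hℓ,
    fun d _ hd => Fermat.Agent.S37.SwapGal.swapField_gen iotaBar x y h hℓ hd,
    fun d _ hd => Fermat.Agent.S37.SwapGal.swapField_gen_mul iotaBar x y h hℓ hd,
    omega_omega x y h, omega_tau x y h hℓ,
    fun m _ f c hf => krel_swap x y h hℓ hf⟩

end Fermat.Agent.S35.Betti.Swap

end
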